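/-
T1B (S44), sub-cell TORIC50, brick CMP, part (3) DICT GLUE (helper67), file 9:
INJECTIVITY OF FRAMINGS, DENOMINATORS (Mathlib only).

* `framing_injective` : a nonzero linear map from an invertible module over `R` into a field
  `F ⊇ R` is injective;
* `one_tmul_injective` : `x ↦ 1 ⊗ x : N → R' ⊗[R] N` is injective for `N` flat and `R → R'` injective;
* `exists_denominator` : every element of `E ⊗[W] B` (`E` generated by fractions of `O`) becomes
  integral (`∈ O ⊗[W] B`) after multiplication by a nonzero element of `O`.
-/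
import Mathlib

set_option autoImplicit false
set_option linter.unusedSectionVars false

open TensorProduct

noncomputable section

namespace Fermat.Agent.T1B.Cmp67

universe u

/-- **A nonzero framing of an invertible module is injective.** -/
theorem framing_injective {R : Type*} [CommRing R] {N : Type*} [AddCommGroup N] [Module R N]
    [Module.Invertible R N] {F : Type*} [Field F] [Algebra R F]
    (hinj : Function.Injective (algebraMap R F)) (ε : N →ₗ[R] F) (hε : ε ≠ 0) :
    Function.Injective ε := by
  rw [injective_iff_map_eq_zero]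
  intro x hx
  obtain ⟨y, hy⟩ : ∃ y, ε y ≠ 0 := by
    by_contra hcon
    push Not at hcon
    exact hε (LinearMap.ext hcon)
  rw [← Module.forall_dual_apply_eq_zero_iff R]
  intro φ
  -- rank one: `φ x • y = φ y • x`
  have h1 : φ x • y = φ y • x := by
    have h2 : (x ⊗ₜ[R] y : N ⊗[R] N) = y ⊗ₜ[R] x := Module.Invertible.tmul_comm
    have h3 := congrArg (fun z => TensorProduct.lid R N (LinearMap.rTensor N φ z)) h2
    simpa using h3
  have h4 := congrArg ε h1
  rw [map_smul, map_smul, hx, smul_zero, Algebra.smul_def] at h4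
  have h5 : algebraMap R F (φ x) = 0 := (mul_eq_zero.1 h4).resolve_right hy
  exact hinj (by rw [h5, map_zero])

/-- `x ↦ 1 ⊗ x` is injective for a flat module and an injective ring map. -/
theorem one_tmul_injective {R R' : Type*} [CommRing R] [CommRing R'] [Algebra R R']
    (hinj : Function.Injective (algebraMap R R')) {N : Type*} [AddCommGroup N] [Module R N]
    [Module.Flat R N] : Function.Injective (fun x : N => ((1 : R') ⊗ₜ[R] x : R' ⊗[R] N)) := by
  have h1 : Function.Injective (LinearMap.rTensor N (Algebra.linearMap R R')) :=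
    Module.Flat.rTensor_preserves_injective_linearMap (Algebra.linearMap R R') hinj
  intro x y hxy
  apply (TensorProduct.lid R N).symm.injective
  apply h1
  simpa using hxy

section Denominator

variable {W : Type u} [CommRing W] {O E : Type u} [CommRing O] [IsDomain O] [CommRing E]
  [Algebra W O] [Algebra W E] [Algebra O E] [IsScalarTower W O E]

/-- **Denominators.** -/
theorem exists_denominator (hfrac : ∀ e : E, ∃ c : O, c ≠ 0 ∧ ∃ o : O,
      algebraMap O E o = algebraMap O E c * e)
    (B : Type u) [CommRing B] [Algebra W B] (t : E ⊗[W] B) :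
    ∃ c : O, c ≠ 0 ∧ ∃ z : O ⊗[W] B,
      Algebra.TensorProduct.map (IsScalarTower.toAlgHom W O E) (AlgHom.id W B) z
        = (algebraMap O E c ⊗ₜ[W] (1 : B)) * t := by
  induction t using TensorProduct.induction_on with
  | zero => exact ⟨1, one_ne_zero, 0, by simp⟩
  | tmul e b =>
    obtain ⟨c, hc, o, ho⟩ := hfrac e
    refine ⟨c, hc, o ⊗ₜ[W] b, ?_⟩
    rw [Algebra.TensorProduct.map_tmul, Algebra.TensorProduct.tmul_mul_tmul, one_mul, ← ho]
    rfl
  | add x y hx hy =>
    obtain ⟨c, hc, z, hz⟩ := hx
    obtain ⟨c', hc', z', hz'⟩ := hy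
    refine ⟨c * c', mul_ne_zero hc hc', (c' ⊗ₜ[W] (1 : B)) * z + (c ⊗ₜ[W] (1 : B)) * z', ?_⟩
    rw [map_add, map_mul, map_mul, hz, hz', Algebra.TensorProduct.map_tmul,
      Algebra.TensorProduct.map_tmul, map_one, map_mul, mul_add, ← mul_assoc, ← mul_assoc,
      Algebra.TensorProduct.tmul_mul_tmul, Algebra.TensorProduct.tmul_mul_tmul, mul_one]
    have h1 : (IsScalarTower.toAlgHom W O E) c' = algebraMap O E c' := rfl
    have h2 : (IsScalarTower.toAlgHom W O E) c = algebraMap O E c := rfl
    rw [h1, h2, mul_comm (algebraMap O E c') (algebraMap O E c)]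

end Denominator

end Fermat.Agent.T1B.Cmp67
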