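/-
T1B (S44), sub-cell TORIC50, brick CMP, part (3) DICT GLUE (helper67), file 1: pure algebra.

* `equivOfGen`      : an invertible module generated by one element `μ` is free on `μ`;
* `exists_smul_eq_smul_gen` : NAKAYAMA in the form used for lines with trivial special fibre: if
  `M` is finite and `M = R μ + I M` then there is `s ≡ 1 mod I` with `s M ⊆ R μ`
  (`μ` generates `M` on `D(s)`);
* `exists_eq_smul_of_equiv_tensor` : such a `μ` generates every base change `R' ⊗ M` in which `s`
  becomes a unit.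
-/
import Mathlib

set_option autoImplicit false

open TensorProduct

namespace Fermat.Agent.T1B.Cmp67

section Gen

variable {R M : Type*} [CommRing R] [AddCommGroup M] [Module R M]

/-- An invertible module generated by `μ` is free on `μ`. -/
noncomputable def equivOfGen [Module.Invertible R M] (μ : M) (h : ∀ x : M, ∃ r : R, x = r • μ) :
    R ≃ₗ[R] M :=
  LinearEquiv.ofBijective (LinearMap.toSpanSingleton R M μ)
    (Module.Invertible.bijective_of_surjective (fun x => by
      obtain ⟨r, hr⟩ := h x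
      exact ⟨r, by rw [LinearMap.toSpanSingleton_apply, hr]⟩))

@[simp] theorem equivOfGen_apply [Module.Invertible R M] (μ : M)
    (h : ∀ x : M, ∃ r : R, x = r • μ) (r : R) : equivOfGen μ h r = r • μ := rfl

theorem equivOfGen_one [Module.Invertible R M] (μ : M) (h : ∀ x : M, ∃ r : R, x = r • μ) :
    equivOfGen μ h 1 = μ := by
  rw [equivOfGen_apply, one_smul]

/-- A generator of an invertible module has trivial annihilator. -/
theorem eq_zero_of_smul_gen_eq_zero [Module.Invertible R M] (μ : M)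
    (h : ∀ x : M, ∃ r : R, x = r • μ) {r : R} (hr : r • μ = 0) : r = 0 := by
  have h1 : equivOfGen μ h r = 0 := by rw [equivOfGen_apply, hr]
  exact (LinearEquiv.map_eq_zero_iff _).1 h1

/-- **Nakayama**: if `M` is finite and `M = R μ + I M`, then `μ` generates `M` on `D(s)` for some
`s ≡ 1 mod I`. -/
theorem exists_smul_eq_smul_gen [Module.Finite R M] (I : Ideal R) (μ : M)
    (h : ∀ x : M, ∃ r : R, x - r • μ ∈ I • (⊤ : Submodule R M)) :
    ∃ s : R, s - 1 ∈ I ∧ ∀ x : M, ∃ r : R, s • x = r • μ := by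
  set N : Submodule R M := Submodule.span R {μ} with hN
  have hfg : (⊤ : Submodule R (M ⧸ N)).FG := Module.finite_def.1 inferInstance
  have hle : (⊤ : Submodule R (M ⧸ N)) ≤ I • (⊤ : Submodule R (M ⧸ N)) := by
    rintro q -
    obtain ⟨x, rfl⟩ := N.mkQ_surjective q
    obtain ⟨r, hr⟩ := h x
    have h1 : N.mkQ x = N.mkQ (x - r • μ) := by
      rw [map_sub, map_smul]
      have : N.mkQ μ = 0 := by
        rw [Submodule.mkQ_apply, Submodule.Quotient.mk_eq_zero]
        exact Submodule.subset_span rfl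
      rw [this, smul_zero, sub_zero]
    rw [h1]
    have h2 : N.mkQ (x - r • μ) ∈ (I • (⊤ : Submodule R M)).map N.mkQ :=
      Submodule.mem_map_of_mem hr
    rw [Submodule.map_smul''] at h2
    exact Submodule.smul_mono le_rfl le_top h2
  obtain ⟨s, hs1, hs⟩ :=
    Submodule.exists_sub_one_mem_and_smul_eq_zero_of_fg_of_le_smul I ⊤ hfg hle
  refine ⟨s, hs1, fun x => ?_⟩
  have h3 : s • N.mkQ x = 0 := hs _ Submodule.mem_top
  rw [← map_smul, Submodule.mkQ_apply, Submodule.Quotient.mk_eq_zero, hN,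
    Submodule.mem_span_singleton] at h3
  obtain ⟨r, hr⟩ := h3
  exact ⟨r, hr.symm⟩

end Gen

section BaseChange

variable {R R' M M' : Type*} [CommRing R] [CommRing R'] [Algebra R R'] [AddCommGroup M]
  [Module R M] [AddCommGroup M'] [Module R' M']

/-- If `μ` generates `M` on `D(s)` and `s` becomes a unit in `R'`, then `1 ⊗ μ` generates
`R' ⊗ M`. -/
theorem exists_eq_smul_of_equiv_tensor (e : R' ⊗[R] M ≃ₗ[R'] M') (μ : M) (s : R)
    (hs : IsUnit (algebraMap R R' s)) (hgen : ∀ x : M, ∃ r : R, s • x = r • μ) (x' : M') :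
    ∃ r' : R', x' = r' • e (1 ⊗ₜ[R] μ) := by
  obtain ⟨z, rfl⟩ := e.surjective x'
  induction z using TensorProduct.induction_on with
  | zero => exact ⟨0, by rw [map_zero, zero_smul]⟩
  | add z w hz hw =>
    obtain ⟨a, ha⟩ := hz
    obtain ⟨b, hb⟩ := hw
    exact ⟨a + b, by rw [map_add, ha, hb, add_smul]⟩
  | tmul a x =>
    obtain ⟨r, hr⟩ := hgen x
    obtain ⟨u, hu⟩ := hs
    refine ⟨a * ((u⁻¹ : R'ˣ) : R') * algebraMap R R' r, ?_⟩
    rw [← map_smul]
    congr 1
    have hu' : algebraMap R R' s * ((u⁻¹ : R'ˣ) : R') = 1 := by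
      rw [← hu]
      exact Units.mul_inv u
    calc a ⊗ₜ[R] x = (s • (a * ((u⁻¹ : R'ˣ) : R'))) ⊗ₜ[R] x := by
          rw [Algebra.smul_def, mul_left_comm, hu', mul_one]
      _ = (a * ((u⁻¹ : R'ˣ) : R')) ⊗ₜ[R] (s • x) := TensorProduct.smul_tmul _ _ _
      _ = (a * ((u⁻¹ : R'ˣ) : R')) ⊗ₜ[R] (r • μ) := by rw [hr]
      _ = (r • (a * ((u⁻¹ : R'ˣ) : R'))) ⊗ₜ[R] μ := (TensorProduct.smul_tmul _ _ _).symm
      _ = (a * ((u⁻¹ : R'ˣ) : R') * algebraMap R R' r) • ((1 : R') ⊗ₜ[R] μ) := by
          rw [TensorProduct.smul_tmul', smul_eq_mul, mul_one, Algebra.smul_def, mul_comm]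

end BaseChange


section Kernel

variable {S S' M : Type*} [CommRing S] [CommRing S'] [Algebra S S'] [AddCommGroup M] [Module S M]

/-- Along a surjection `S → S'` every element of `S' ⊗ M` is of the form `1 ⊗ x`. -/
theorem exists_one_tmul_eq (hs : Function.Surjective (algebraMap S S')) (z : S' ⊗[S] M) :
    ∃ x : M, (1 : S') ⊗ₜ[S] x = z := by
  induction z using TensorProduct.induction_on with
  | zero => exact ⟨0, by rw [TensorProduct.tmul_zero]⟩
  | add z w hz hw =>
    obtain ⟨x, rfl⟩ := hz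
    obtain ⟨y, rfl⟩ := hw
    exact ⟨x + y, by rw [TensorProduct.tmul_add]⟩
  | tmul a x =>
    obtain ⟨r, rfl⟩ := hs a
    refine ⟨r • x, ?_⟩
    rw [← TensorProduct.smul_tmul, Algebra.smul_def, mul_one]

/-- The kernel of `M → S' ⊗ M` along a surjection `S → S'` with kernel `K` is `K M`. -/
theorem mem_smul_top_of_one_tmul_eq_zero (hs : Function.Surjective (algebraMap S S')) {z : M}
    (hz : (1 : S') ⊗ₜ[S] z = 0) :
    z ∈ (RingHom.ker (algebraMap S S')) • (⊤ : Submodule S M) := by
  set g : S →ₗ[S] S' := Algebra.linearMap S S' with hg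
  have hex : Function.Exact (LinearMap.ker g).subtype g := LinearMap.exact_subtype_ker_map g
  have hgs : Function.Surjective g := hs
  have hex2 := rTensor_exact M hex hgs
  have h1 : (LinearMap.rTensor M g) ((1 : S) ⊗ₜ[S] z) = 0 := by
    rw [LinearMap.rTensor_tmul, hg, Algebra.linearMap_apply, map_one, hz]
  obtain ⟨w, hw⟩ := (hex2 _).1 h1
  have key : ∀ w : (LinearMap.ker g) ⊗[S] M,
      TensorProduct.lid S M (LinearMap.rTensor M (LinearMap.ker g).subtype w) ∈
        (RingHom.ker (algebraMap S S')) • (⊤ : Submodule S M) := by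
    intro w
    induction w using TensorProduct.induction_on with
    | zero => simp
    | add a b ha hb =>
      rw [map_add, map_add]
      exact Submodule.add_mem _ ha hb
    | tmul k m =>
      rw [LinearMap.rTensor_tmul, TensorProduct.lid_tmul]
      refine Submodule.smul_mem_smul ?_ Submodule.mem_top
      have hk : g (k : S) = 0 := LinearMap.mem_ker.1 k.2
      exact hk
  have := key w
  rw [hw, TensorProduct.lid_tmul, one_smul] at this
  exact this

end Kernel

end Fermat.Agent.T1B.Cmp67
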