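/-
T1B (S44), sub-cell TORIC50, brick CMP, part (3) DICT GLUE (helper67), file 2:
GENERATORS OF LINES AND TRANSITION UNITS.

`GenData L` : a line two-chart module `L` over `(A, R0, R1, R01)` with elements `μ_j ∈ N_j`
generating `N_j` on `D(s_j)` (`s_j • x ∈ R_j μ_j`), and `a ∈ R01` with `s0 • r1 μ1 = a • r0 μ0`
(so that the transition function of `L` in the frame `(μ0, μ1)` is `a / s0`).

* `GenData.exists_cechClass_eq` : for every base change `L'` of `L` along a cube of rings in which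
  `s0`, `s1` become units, `[L'] = cechClass v` where `v * s0 = a` (images in `R01'`).
-/
import Mathlib
import Fermat.Agent.T1B.Cmp67.GenAlg
import Fermat.Agent.T1.Red11.CechLine
import Fermat.Agent.T1.Red11.MapComp

set_option autoImplicit false
set_option linter.unusedSectionVars false

open TensorProduct

noncomputable section

namespace Fermat.Agent.T1B.Cmp67

open Fermat.Agent.Jac Fermat.Agent.Jac.JSmooth85Alg Fermat.Agent.Jac.JGroup85Pic
open Fermat.Agent.Jac.LineOps39 Fermat.Agent.Jac.BaseChange75 Fermat.Agent.T1.RedIface75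
open Fermat.Agent.T1.Red11

universe u

section Cube

variable {A R0 R1 R01 A' R0' R1' R01' : Type u}
  [CommRing A] [CommRing R0] [CommRing R1] [CommRing R01]
  [Algebra A R0] [Algebra A R1] [Algebra A R01] [Algebra R0 R01] [Algebra R1 R01]
  [IsScalarTower A R0 R01] [IsScalarTower A R1 R01]
  [CommRing A'] [CommRing R0'] [CommRing R1'] [CommRing R01']
  [Algebra A' R0'] [Algebra A' R1'] [Algebra A' R01'] [Algebra R0' R01'] [Algebra R1' R01']
  [IsScalarTower A' R0' R01'] [IsScalarTower A' R1' R01']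
  [Algebra R0 R0'] [Algebra R1 R1'] [Algebra R01 R01']

/-- Generators of a two-chart module on `D(s0)`, `D(s1)`, with the numerator `a` of the transition
function. -/
structure GenData (L : QC2 A R0 R1 R01) where
  μ0 : L.N0
  μ1 : L.N1
  s0 : R0
  s1 : R1
  a : R01
  gen0 : ∀ x : L.N0, ∃ r : R0, s0 • x = r • μ0
  gen1 : ∀ x : L.N1, ∃ r : R1, s1 • x = r • μ1
  ha : s0 • L.r1 μ1 = a • L.r0 μ0

variable {L : QC2 A R0 R1 R01} {L' : QC2 A' R0' R1' R01'}

/-- **The class of a base change in which the `s_j` become units is the Čech class of `a / s0`.** -/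
theorem GenData.exists_cechClass_eq (G : GenData L) (hL : L.IsLine) (h : LiftData L L')
    (hc0 : (algebraMap R0' R01').comp (algebraMap R0 R0') =
      (algebraMap R01 R01').comp (algebraMap R0 R01))
    (c' : TwoChart A' R0' R1' R01')
    (hu0 : IsUnit (algebraMap R0 R0' G.s0)) (hu1 : IsUnit (algebraMap R1 R1' G.s1)) :
    ∃ v : R01'ˣ, (v : R01') * algebraMap R0' R01' (algebraMap R0 R0' G.s0)
        = algebraMap R01 R01' G.a ∧
      LinePic.mk c' L' (LiftData.isLine h hL) = cechClass c' v := by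
  have hL' : L'.IsLine := LiftData.isLine h hL
  have := hL'.inv0
  have := hL'.inv1
  have g0 := exists_eq_smul_of_equiv_tensor h.e0 G.μ0 G.s0 hu0 G.gen0
  have g1 := exists_eq_smul_of_equiv_tensor h.e1 G.μ1 G.s1 hu1 G.gen1
  set e0 : R0' ≃ₗ[R0'] L'.N0 := equivOfGen (h.e0 (1 ⊗ₜ G.μ0)) g0 with he0
  set e1 : R1' ≃ₗ[R1'] L'.N1 := equivOfGen (h.e1 (1 ⊗ₜ G.μ1)) g1 with he1
  refine ⟨transUnit L' e0 e1, ?_, exists_cechClass_eq_of_triv c' L' hL' e0 e1⟩
  have ht := transUnit_smul L' e0 e1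
  rw [he0, he1, equivOfGen_one, equivOfGen_one] at ht
  rw [← he0, ← he1] at ht
  -- transport the relation `s0 • r1 μ1 = a • r0 μ0`
  have hrel : h.e01 ((1 : R01') ⊗ₜ[R01] (G.s0 • L.r1 G.μ1))
      = h.e01 ((1 : R01') ⊗ₜ[R01] (G.a • L.r0 G.μ0)) := by rw [G.ha]
  have hs : (G.s0 • L.r1 G.μ1 : L.N01) = (algebraMap R0 R01 G.s0) • L.r1 G.μ1 :=
    (algebraMap_smul R01 G.s0 (L.r1 G.μ1)).symm
  rw [hs, ← TensorProduct.smul_tmul, ← TensorProduct.smul_tmul, Algebra.smul_def, mul_one,
    Algebra.smul_def, mul_one] at hrel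
  have h2 : ∀ (c : R01') (z : L.N01), h.e01 (c ⊗ₜ[R01] z) = c • h.e01 ((1 : R01') ⊗ₜ[R01] z) := by
    intro c z
    rw [← map_smul, TensorProduct.smul_tmul', smul_eq_mul, mul_one]
  rw [h2, h2 (algebraMap R01 R01' G.a), h.comm1, h.comm0, ← ht, smul_smul] at hrel
  -- `r0 μ0'` is a free generator of `N01'`
  have hone := triv01OfTriv0_one L' e0
  rw [he0, equivOfGen_one, ← he0] at hone
  rw [← hone, ← map_smul, ← map_smul] at hrel
  have h3 := (triv01OfTriv0 L' e0).injective hrel
  rw [smul_eq_mul, mul_one, smul_eq_mul, mul_one] at h3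
  rw [← h3, mul_comm]
  congr 1
  exact (RingHom.congr_fun hc0 G.s0)

end Cube

end Fermat.Agent.T1B.Cmp67
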