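/-
T1B (S44), sub-cell TORIC50, brick CMP, part (3) DICT GLUE (helper67), file 6:
NORM-TRIVIAL FRAMED LINES, and the junction identity (H).

One level (a field `κ`; in the application `κ = L` a number field or `κ = E` a `p`-adic field):
source chart rings `S0, S1, S01` (`= κ ⊗ B_j`), target chart rings `T0, T1, T01` (`= κ ⊗ B_j'`),
fields `F ⊇ S01`, `F' ⊇ T01`, a multiplicative map `Nm : F →* F'` (the norm).

* `ChartNormTriv Nm T I h` : `I ⊆ F` an `S`-submodule; there is `J` with `1 ∈ I * J`,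
  `Nm(I) h ⊆ T`, `Nm(J) h⁻¹ ⊆ T`  (the norm of the invertible ideal `I` is `h⁻¹ T`);
* `NormTriv Nm M` : the line `M` has a nonzero framing `ε` and `h ≠ 0` with both frames
  chart-norm-trivial for the SAME `h` (the norm of the line bundle is trivial);
* `exists_junction` : **(H)** for a norm-trivial line with generators `GenData`:
  `∃ c_j c_j' ∈ T_j, c_j c_j' = n_j(s_j), n01(a) · c0 = n0(s0) · c1`.
-/
import Mathlib
import Fermat.Agent.T1B.Cmp67.Gen
import Fermat.Agent.T1B.Hol31.Frame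

set_option autoImplicit false
set_option linter.unusedSectionVars false

open TensorProduct

noncomputable section

namespace Fermat.Agent.T1B.Cmp67

open Fermat.Agent.Jac Fermat.Agent.T1B.Hol31.Frame

universe u

section OneChart

variable {S S01 : Type u} [CommRing S] [CommRing S01] [Algebra S S01]
  {F : Type u} [Field F] [Algebra S F] [Algebra S01 F] [IsScalarTower S S01 F]
  {T : Type u} [CommRing T] {F' : Type u} [Field F'] [Algebra T F']

/-- The norm of the invertible `S`-submodule `I ⊆ F` is `h⁻¹ T`. -/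
def ChartNormTriv (Nm : F →* F') (T : Type u) [CommRing T] [Algebra T F'] (I : Submodule S F)
    (h : F') : Prop :=
  ∃ J : Submodule S F, (1 : F) ∈ I * J ∧
    (∀ f ∈ I, ∃ t : T, algebraMap T F' t = Nm f * h) ∧
    (∀ f ∈ J, ∃ t : T, algebraMap T F' t = Nm f * h⁻¹)

/-- a multiplicative map between fields sends nonzero elements to nonzero elements. -/
theorem nm_ne_zero (Nm : F →* F') {x : F} (hx : x ≠ 0) : Nm x ≠ 0 := by
  intro h4
  have : Nm x * Nm x⁻¹ = 1 := by rw [← map_mul, mul_inv_cancel₀ hx, map_one]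
  rw [h4, zero_mul] at this
  exact zero_ne_one this

/-- a multiplicative map between fields commutes with inversion of nonzero elements. -/
theorem nm_inv (Nm : F →* F') {x : F} (hx : x ≠ 0) : Nm x⁻¹ = (Nm x)⁻¹ := by
  have : Nm x * Nm x⁻¹ = 1 := by rw [← map_mul, mul_inv_cancel₀ hx, map_one]
  exact eq_inv_of_mul_eq_one_right this

/-- if `1 ∈ I * J` and `f I ⊆ S` then `f ∈ J`. -/
theorem mem_of_mul_subset {I J : Submodule S F} (h1 : (1 : F) ∈ I * J) {f : F}
    (hf : ∀ a ∈ I, ∃ r : S, f * a = algebraMap S F r) : f ∈ J := by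
  have key : ∀ z ∈ I * J, f * z ∈ J := by
    intro z hz
    induction hz using Submodule.mul_induction_on' with
    | mem_mul_mem a ha b hb =>
      obtain ⟨r, hr⟩ := hf a ha
      rw [← mul_assoc, hr, ← Algebra.smul_def]
      exact J.smul_mem r hb
    | add x _ y _ hx hy => rw [mul_add]; exact J.add_mem hx hy
  have := key 1 h1
  rwa [mul_one] at this

variable {N N01 : Type u} [AddCommGroup N] [AddCommGroup N01] [Module S N] [Module S01 N01]
  [Module S N01] [IsScalarTower S S01 N01]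

/-- **One chart.**  A generator `μ` of `N` on `D(s)`, a framing `ε`, and chart-norm-triviality of the
frame give `c, c' ∈ T` with `c = Nm(ε μ) h` and `c c' = Nm(s)`. -/
theorem exists_chart_units (Nm : F →* F') (r : N →ₗ[S] N01) (ε : N01 →ₗ[S01] F)
    (I : Submodule S F) (hI : ∀ z, z ∈ I ↔ ∃ x : N, ε (r x) = z) (h : F') (h0 : h ≠ 0)
    (hNT : ChartNormTriv Nm T I h) (μ : N) (s : S)
    (gen : ∀ x : N, ∃ r' : S, s • x = r' • μ) (hm : ε (r μ) ≠ 0) :
    ∃ c c' : T, algebraMap T F' c = Nm (ε (r μ)) * h ∧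
      algebraMap T F' (c * c') = Nm (algebraMap S F s) := by
  obtain ⟨J, h1, hIJ, hJ⟩ := hNT
  have hμI : ε (r μ) ∈ I := (hI _).2 ⟨μ, rfl⟩
  obtain ⟨c, hc⟩ := hIJ _ hμI
  -- `f := s / m ∈ J`
  have hfJ : algebraMap S F s * (ε (r μ))⁻¹ ∈ J := by
    apply mem_of_mul_subset h1
    intro a ha
    obtain ⟨x, rfl⟩ := (hI a).1 ha
    obtain ⟨r', hr'⟩ := gen x
    refine ⟨r', ?_⟩
    have h2 : algebraMap S F s * ε (r x) = algebraMap S F r' * ε (r μ) := by
      have h3 : ε (r (s • x)) = ε (r (r' • μ)) := by rw [hr']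
      have h4 : ∀ (q : S) (y : N), ε (r (q • y)) = algebraMap S F q * ε (r y) := by
        intro q y
        rw [map_smul, ← algebraMap_smul S01 q (r y), map_smul, Algebra.smul_def,
          ← IsScalarTower.algebraMap_apply]
      rw [h4, h4] at h3
      exact h3
    calc algebraMap S F s * (ε (r μ))⁻¹ * ε (r x)
        = (algebraMap S F s * ε (r x)) * (ε (r μ))⁻¹ := by ring
      _ = algebraMap S F r' := by rw [h2, mul_assoc, mul_inv_cancel₀ hm, mul_one]
  obtain ⟨c', hc'⟩ := hJ _ hfJ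
  refine ⟨c, c', hc, ?_⟩
  rw [map_mul, hc, hc', map_mul, nm_inv Nm hm]
  have hN0 : Nm (ε (r μ)) ≠ 0 := nm_ne_zero Nm hm
  field_simp

end OneChart

section TwoCharts

variable {A S0 S1 S01 : Type u} [CommRing A] [CommRing S0] [CommRing S1] [CommRing S01]
  [Algebra A S0] [Algebra A S1] [Algebra A S01] [Algebra S0 S01] [Algebra S1 S01]
  [IsScalarTower A S0 S01] [IsScalarTower A S1 S01]
  {F : Type u} [Field F] [Algebra S0 F] [Algebra S1 F] [Algebra S01 F]
  [IsScalarTower S0 S01 F] [IsScalarTower S1 S01 F]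
  {T0 T1 T01 : Type u} [CommRing T0] [CommRing T1] [CommRing T01] [Algebra T0 T01]
  [Algebra T1 T01]
  {F' : Type u} [Field F'] [Algebra T0 F'] [Algebra T1 F'] [Algebra T01 F']
  [IsScalarTower T0 T01 F'] [IsScalarTower T1 T01 F']

/-- **Norm-trivial framed lines**: a nonzero framing `ε` and ONE `h ≠ 0` such that the norms of both
frames are `h⁻¹ T_j`. -/
def NormTriv (Nm : F →* F') (T0 T1 : Type u) [CommRing T0] [CommRing T1] [Algebra T0 F']
    [Algebra T1 F'] (M : QC2 A S0 S1 S01) : Prop :=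
  ∃ (ε : M.N01 →ₗ[S01] F) (h : F'), ε ≠ 0 ∧ h ≠ 0 ∧
    ChartNormTriv Nm T0 (frame0 M ε) h ∧ ChartNormTriv Nm T1 (frame1 M ε) h

/-- Norm-triviality is invariant under isomorphisms. -/
theorem NormTriv.of_iso {Nm : F →* F'} {L M : QC2 A S0 S1 S01} (e : QC2.Iso L M)
    (hM : NormTriv Nm T0 T1 M) : NormTriv Nm T0 T1 L := by
  obtain ⟨ε, h, hε, h0, hN0, hN1⟩ := hM
  refine ⟨ε.comp e.e01.toLinearMap, h, ?_, h0, ?_, ?_⟩
  · intro hc
    apply hε
    ext z
    have := LinearMap.congr_fun hc (e.e01.symm z)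
    rwa [LinearMap.comp_apply, LinearEquiv.coe_coe, LinearEquiv.apply_symm_apply] at this
  · rw [frame0_iso]; exact hN0
  · rw [frame1_iso]; exact hN1

/-- a framing vanishing on a generator of `N0` on `D(s0)` vanishes. -/
theorem framing_gen0_ne_zero {M : QC2 A S0 S1 S01} (G : GenData M) {ε : M.N01 →ₗ[S01] F}
    (hε : ε ≠ 0) (hs0 : algebraMap S0 F G.s0 ≠ 0) : ε (M.r0 G.μ0) ≠ 0 := by
  intro h0
  apply hε
  have h4 : ∀ (q : S0) (y : M.N0), ε (M.r0 (q • y)) = algebraMap S0 F q * ε (M.r0 y) := by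
    intro q y
    rw [map_smul, ← algebraMap_smul S01 q (M.r0 y), map_smul, Algebra.smul_def,
      ← IsScalarTower.algebraMap_apply]
  have h1 : ∀ x : M.N0, ε (M.r0 x) = 0 := by
    intro x
    obtain ⟨r', hr'⟩ := G.gen0 x
    have h3 : ε (M.r0 (G.s0 • x)) = ε (M.r0 (r' • G.μ0)) := by rw [hr']
    rw [h4, h4, h0, mul_zero] at h3
    exact (mul_eq_zero.1 h3).resolve_left hs0
  ext z
  rw [LinearMap.zero_apply]
  induction z using M.bc0.inductionOn with
  | zero => exact map_zero _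
  | tmul x => exact h1 x
  | smul c z hz => rw [map_smul, hz, smul_zero]
  | add z w hz hw => rw [map_add, hz, hw, add_zero]

/-- a framing vanishing on a generator of `N1` on `D(s1)` vanishes. -/
theorem framing_gen1_ne_zero {M : QC2 A S0 S1 S01} (G : GenData M) {ε : M.N01 →ₗ[S01] F}
    (hε : ε ≠ 0) (hs1 : algebraMap S1 F G.s1 ≠ 0) : ε (M.r1 G.μ1) ≠ 0 := by
  intro h0
  apply hε
  have h4 : ∀ (q : S1) (y : M.N1), ε (M.r1 (q • y)) = algebraMap S1 F q * ε (M.r1 y) := by
    intro q y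
    rw [map_smul, ← algebraMap_smul S01 q (M.r1 y), map_smul, Algebra.smul_def,
      ← IsScalarTower.algebraMap_apply]
  have h1 : ∀ x : M.N1, ε (M.r1 x) = 0 := by
    intro x
    obtain ⟨r', hr'⟩ := G.gen1 x
    have h3 : ε (M.r1 (G.s1 • x)) = ε (M.r1 (r' • G.μ1)) := by rw [hr']
    rw [h4, h4, h0, mul_zero] at h3
    exact (mul_eq_zero.1 h3).resolve_left hs1
  ext z
  rw [LinearMap.zero_apply]
  induction z using M.bc1.inductionOn with
  | zero => exact map_zero _
  | tmul x => exact h1 x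
  | smul c z hz => rw [map_smul, hz, smul_zero]
  | add z w hz hw => rw [map_add, hz, hw, add_zero]

/-- **The junction identity (H).**  For a norm-trivial line with generators `μ_j` on `D(s_j)` and
transition numerator `a` (`s0 • r1 μ1 = a • r0 μ0`): there are `c_j, c_j' ∈ T_j` with
`c_j c_j' = n_j(s_j)` and `n01(a) · c0 = n0(s0) · c1` on the overlap. -/
theorem exists_junction (Nm : F →* F') (n0 : S0 →* T0) (n1 : S1 →* T1) (n01 : S01 →* T01)
    (hres0 : ∀ x, n01 (algebraMap S0 S01 x) = algebraMap T0 T01 (n0 x))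
    (hres1 : ∀ x, n01 (algebraMap S1 S01 x) = algebraMap T1 T01 (n1 x))
    (hNm : ∀ u, Nm (algebraMap S01 F u) = algebraMap T01 F' (n01 u))
    (hinj : Function.Injective (algebraMap T01 F'))
    (hinj0 : Function.Injective (algebraMap T0 F'))
    (hinj1 : Function.Injective (algebraMap T1 F'))
    {M : QC2 A S0 S1 S01} (G : GenData M) (hNT : NormTriv Nm T0 T1 M)
    (hs0 : algebraMap S0 F G.s0 ≠ 0) (hs1 : algebraMap S1 F G.s1 ≠ 0) :
    ∃ (c0 c0' : T0) (c1 c1' : T1), c0 * c0' = n0 G.s0 ∧ c1 * c1' = n1 G.s1 ∧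
      n01 G.a * algebraMap T0 T01 c0 = algebraMap T0 T01 (n0 G.s0) * algebraMap T1 T01 c1 := by
  obtain ⟨ε, h, hε, h0, hN0, hN1⟩ := hNT
  have hm0 := framing_gen0_ne_zero G hε hs0
  have hm1 := framing_gen1_ne_zero G hε hs1
  obtain ⟨c0, c0', hc0, hcc0⟩ := exists_chart_units Nm M.r0 ε (frame0 M ε)
    (fun z => mem_frame0) h h0 hN0 G.μ0 G.s0 G.gen0 hm0
  obtain ⟨c1, c1', hc1, hcc1⟩ := exists_chart_units Nm M.r1 ε (frame1 M ε)
    (fun z => mem_frame1) h h0 hN1 G.μ1 G.s1 G.gen1 hm1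
  have hNs0 : Nm (algebraMap S0 F G.s0) = algebraMap T0 F' (n0 G.s0) := by
    rw [IsScalarTower.algebraMap_apply S0 S01 F, hNm, hres0, ← IsScalarTower.algebraMap_apply]
  have hNs1 : Nm (algebraMap S1 F G.s1) = algebraMap T1 F' (n1 G.s1) := by
    rw [IsScalarTower.algebraMap_apply S1 S01 F, hNm, hres1, ← IsScalarTower.algebraMap_apply]
  refine ⟨c0, c0', c1, c1', hinj0 (by rw [hcc0, hNs0]), hinj1 (by rw [hcc1, hNs1]), hinj ?_⟩
  -- the relation on the overlap
  have hrel : algebraMap S0 F G.s0 * ε (M.r1 G.μ1) = algebraMap S01 F G.a * ε (M.r0 G.μ0) := by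
    have h3 := congrArg ε G.ha
    rw [← algebraMap_smul S01 G.s0 (M.r1 G.μ1), map_smul, map_smul, Algebra.smul_def,
      Algebra.smul_def, ← IsScalarTower.algebraMap_apply] at h3
    exact h3
  have h5 := congrArg Nm hrel
  rw [map_mul, map_mul, hNs0, hNm] at h5
  rw [map_mul, map_mul, ← IsScalarTower.algebraMap_apply, ← IsScalarTower.algebraMap_apply,
    ← IsScalarTower.algebraMap_apply, hc0, hc1]
  calc algebraMap T01 F' (n01 G.a) * (Nm (ε (M.r0 G.μ0)) * h)
      = (algebraMap T01 F' (n01 G.a) * Nm (ε (M.r0 G.μ0))) * h := by ring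
    _ = (algebraMap T0 F' (n0 G.s0) * Nm (ε (M.r1 G.μ1))) * h := by rw [h5]
    _ = algebraMap T0 F' (n0 G.s0) * (Nm (ε (M.r1 G.μ1)) * h) := by ring

end TwoCharts

end Fermat.Agent.T1B.Cmp67
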