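/-
T1B (S44), sub-cell TORIC50, brick CMP, part (3) DICT GLUE (helper67), file 5:
THE POLYNOMIAL TRANSFER LEMMA (Mathlib only).

`L` an infinite field, `Λ = L[X_i : i ∈ σ]`, `B'` a `W`-algebra, `V ⊆ L ⊗[W] B'` an `L`-subspace.
If `Z ∈ Λ ⊗[W] B'` specialises into `V` at every `L`-point `e : σ → L`, then for every `L`-algebra `E`
and every `E`-point `e : σ → E` it specialises into the `E`-span of the image of `V` in `E ⊗[W] B'`
(`specialize_mem_span`).

Consequence (`norm_combination_mem_span`): for a base-change compatible family of multiplicative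
maps `N R : R ⊗[W] B →* R ⊗[W] B'` (e.g. the norm of a finite projective algebra), if
`N L (∑ e_m • u_m) ∈ V` for all `e : σ → L` then `N E (∑ e_m • û_m) ∈ E ∙ V̂` for all `e : σ → E`.
-/
import Mathlib

set_option autoImplicit false
set_option linter.unusedSectionVars false

open scoped TensorProduct

noncomputable section

namespace Fermat.Agent.T1B.Cmp67

universe u

section Core

variable {W : Type u} [CommRing W] {L : Type u} [Field L] [Algebra W L]
  {B' : Type u} [CommRing B'] [Algebra W B'] {σ : Type u}

/-- `l ⊗ b ↦ (l X^ν) ⊗ b`. -/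
def monoT (ν : σ →₀ ℕ) : L ⊗[W] B' →ₗ[W] MvPolynomial σ L ⊗[W] B' :=
  TensorProduct.map ((MvPolynomial.monomial ν : L →ₗ[L] MvPolynomial σ L).restrictScalars W)
    LinearMap.id

theorem monoT_tmul (ν : σ →₀ ℕ) (l : L) (b : B') :
    monoT (W := W) ν (l ⊗ₜ[W] b) = (MvPolynomial.monomial ν l) ⊗ₜ[W] b := rfl

/-- Every element of `Λ ⊗ B'` is a finite sum of monomials with coefficients in `L ⊗ B'`. -/
theorem exists_coeffs (Z : MvPolynomial σ L ⊗[W] B') :
    ∃ c : (σ →₀ ℕ) →₀ (L ⊗[W] B'), Z = c.sum (fun ν z => monoT ν z) := by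
  classical
  induction Z using TensorProduct.induction_on with
  | zero => exact ⟨0, by simp⟩
  | tmul p b =>
    induction p using MvPolynomial.induction_on' with
    | monomial ν l =>
      refine ⟨Finsupp.single ν (l ⊗ₜ[W] b), ?_⟩
      rw [Finsupp.sum_single_index (by simp), monoT_tmul]
    | add p q hp hq =>
      obtain ⟨c, hc⟩ := hp
      obtain ⟨d, hd⟩ := hq
      refine ⟨c + d, ?_⟩
      rw [TensorProduct.add_tmul, hc, hd, Finsupp.sum_add_index' (by simp) (by simp)]
  | add x y hx hy =>
    obtain ⟨c, hc⟩ := hx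
    obtain ⟨d, hd⟩ := hy
    refine ⟨c + d, ?_⟩
    rw [hc, hd, Finsupp.sum_add_index' (by simp) (by simp)]

variable (W) in
/-- evaluation at a point of an `L`-algebra, as a `W`-algebra map. -/
def evalW {E : Type u} [CommRing E] [Algebra L E] [Algebra W E] [IsScalarTower W L E]
    (e : σ → E) : MvPolynomial σ L →ₐ[W] E :=
  (MvPolynomial.aeval e : MvPolynomial σ L →ₐ[L] E).restrictScalars W

theorem evalW_apply {E : Type u} [CommRing E] [Algebra L E] [Algebra W E] [IsScalarTower W L E]
    (e : σ → E) (p : MvPolynomial σ L) : evalW W e p = MvPolynomial.aeval e p := rfl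

/-- the value of a monomial. -/
theorem map_evalW_monoT {E : Type u} [CommRing E] [Algebra L E] [Algebra W E]
    [IsScalarTower W L E] (e : σ → E) (ν : σ →₀ ℕ) (z : L ⊗[W] B') :
    Algebra.TensorProduct.map (evalW W e) (AlgHom.id W B') (monoT ν z)
      = (ν.prod fun i k => e i ^ k) •
        Algebra.TensorProduct.map (IsScalarTower.toAlgHom W L E) (AlgHom.id W B') z := by
  induction z using TensorProduct.induction_on with
  | zero => simp
  | tmul l b =>
    rw [monoT_tmul, Algebra.TensorProduct.map_tmul, Algebra.TensorProduct.map_tmul, evalW_apply,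
      MvPolynomial.aeval_monomial, TensorProduct.smul_tmul', smul_eq_mul, mul_comm]
    rfl
  | add x y hx hy => rw [map_add, map_add, hx, hy, map_add, smul_add]

/-- **Polynomial transfer, core.** -/
theorem specialize_mem_span [Infinite L] (V : Submodule L (L ⊗[W] B'))
    (Z : MvPolynomial σ L ⊗[W] B')
    (hZ : ∀ e : σ → L, Algebra.TensorProduct.map (evalW W e) (AlgHom.id W B') Z ∈ V)
    {E : Type u} [CommRing E] [Algebra L E] [Algebra W E] [IsScalarTower W L E] (e : σ → E) :
    Algebra.TensorProduct.map (evalW W e) (AlgHom.id W B') Z ∈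
      Submodule.span E ((Algebra.TensorProduct.map (IsScalarTower.toAlgHom W L E)
        (AlgHom.id W B')) '' (V : Set (L ⊗[W] B'))) := by
  classical
  obtain ⟨c, rfl⟩ := exists_coeffs Z
  -- all coefficients lie in `V`
  have hc : ∀ ν, c ν ∈ V := by
    intro ν
    rw [← Subspace.forall_mem_dualAnnihilator_apply_eq_zero_iff]
    intro ψ hψ
    rw [Submodule.mem_dualAnnihilator] at hψ
    -- the polynomial `∑ ψ(c ν) X^ν` vanishes identically
    have hP : (c.sum fun ν z => MvPolynomial.monomial ν (ψ z) : MvPolynomial σ L) = 0 := by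
      apply MvPolynomial.funext
      intro x
      rw [map_zero]
      have h1 := hψ _ (hZ x)
      rw [Finsupp.sum, map_sum] at h1
      rw [Finsupp.sum, map_sum]
      rw [map_sum] at h1
      rw [← h1]
      refine Finset.sum_congr rfl fun μ _ => ?_
      rw [map_evalW_monoT, MvPolynomial.eval_monomial]
      have h2 : Algebra.TensorProduct.map (IsScalarTower.toAlgHom W L L) (AlgHom.id W B') (c μ)
          = c μ := by
        have : (IsScalarTower.toAlgHom W L L) = AlgHom.id W L := by ext; rfl
        rw [this, Algebra.TensorProduct.map_id]; rfl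
      rw [h2, map_smul, smul_eq_mul, mul_comm]
    have h3 := congrArg (MvPolynomial.coeff ν) hP
    rw [MvPolynomial.coeff_zero, Finsupp.sum, MvPolynomial.coeff_sum] at h3
    simp only [MvPolynomial.coeff_monomial] at h3
    rw [Finset.sum_ite_eq'] at h3
    by_cases hν : ν ∈ c.support
    · rw [if_pos hν] at h3; exact h3
    · rw [Finsupp.notMem_support_iff.mp hν, map_zero]
  rw [Finsupp.sum, map_sum]
  refine Submodule.sum_mem _ fun ν _ => ?_
  rw [map_evalW_monoT]
  exact Submodule.smul_mem _ _ (Submodule.subset_span ⟨c ν, hc ν, rfl⟩)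

end Core

section Norm

variable {W : Type u} [CommRing W] {L : Type u} [Field L] [Algebra W L]
  {B B' : Type u} [CommRing B] [CommRing B'] [Algebra W B] [Algebra W B']
  {σ : Type u} [Fintype σ]

/-- `id ⊗ f` is semilinear for the left module structures. -/
theorem map_left_smul {R R' : Type u} [CommRing R] [CommRing R'] [Algebra W R] [Algebra W R']
    (f : R →ₐ[W] R') (r : R) (z : R ⊗[W] B) :
    Algebra.TensorProduct.map f (AlgHom.id W B) (r • z)
      = f r • Algebra.TensorProduct.map f (AlgHom.id W B) z := by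
  have h1 : r • z = (r ⊗ₜ[W] (1 : B)) * z := by
    induction z using TensorProduct.induction_on with
    | zero => simp
    | tmul a b =>
      rw [TensorProduct.smul_tmul', Algebra.TensorProduct.tmul_mul_tmul, smul_eq_mul, one_mul]
    | add x y hx hy => rw [smul_add, hx, hy, mul_add]
  have h2 : ∀ w : R' ⊗[W] B, f r • w = (f r ⊗ₜ[W] (1 : B)) * w := by
    intro w
    induction w using TensorProduct.induction_on with
    | zero => simp
    | tmul a b =>
      rw [TensorProduct.smul_tmul', Algebra.TensorProduct.tmul_mul_tmul, smul_eq_mul, one_mul]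
    | add x y hx hy => rw [smul_add, hx, hy, mul_add]
  rw [h1, map_mul, Algebra.TensorProduct.map_tmul, h2]
  rfl

theorem map_toAlgHom_self (z : L ⊗[W] B) :
    Algebra.TensorProduct.map (IsScalarTower.toAlgHom W L L) (AlgHom.id W B) z = z := by
  have : (IsScalarTower.toAlgHom W L L) = AlgHom.id W L := by ext; rfl
  rw [this, Algebra.TensorProduct.map_id]
  rfl

/-- the generic linear combination `∑ X_i • u_i` over the polynomial ring. -/
def genComb (u : σ → L ⊗[W] B) : MvPolynomial σ L ⊗[W] B :=
  ∑ i, (MvPolynomial.X i : MvPolynomial σ L) •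
    Algebra.TensorProduct.map (IsScalarTower.toAlgHom W L (MvPolynomial σ L)) (AlgHom.id W B) (u i)

theorem map_evalW_genComb (u : σ → L ⊗[W] B) {E : Type u} [CommRing E] [Algebra L E]
    [Algebra W E] [IsScalarTower W L E] (e : σ → E) :
    Algebra.TensorProduct.map (evalW W e) (AlgHom.id W B) (genComb u)
      = ∑ i, e i • Algebra.TensorProduct.map (IsScalarTower.toAlgHom W L E) (AlgHom.id W B)
          (u i) := by
  unfold genComb
  rw [map_sum]
  refine Finset.sum_congr rfl fun i _ => ?_
  rw [map_left_smul, evalW_apply, MvPolynomial.aeval_X]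
  congr 1
  have hcomp : (evalW W e).comp (IsScalarTower.toAlgHom W L (MvPolynomial σ L))
      = IsScalarTower.toAlgHom W L E := by
    ext l
    change MvPolynomial.aeval e (algebraMap L (MvPolynomial σ L) l) = algebraMap L E l
    rw [AlgHom.commutes]
  have h3 := congrArg (fun g => g (u i)) (Algebra.TensorProduct.map_comp (evalW W e)
    (IsScalarTower.toAlgHom W L (MvPolynomial σ L)) (AlgHom.id W B) (AlgHom.id W B))
  simp only [AlgHom.comp_id, AlgHom.comp_apply] at h3
  rw [← h3, hcomp]

/-- **Polynomial transfer for base-change compatible multiplicative maps.**  If the values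
`N L (∑ e_i • u_i)`, `e : σ → L`, all lie in the `L`-subspace `V`, then the values
`N E (∑ e_i • û_i)`, `e : σ → E`, lie in the `E`-span of the image of `V`. -/
theorem norm_combination_mem_span [Infinite L]
    (N : ∀ (R : Type u) [CommRing R] [Algebra W R], (R ⊗[W] B) →* (R ⊗[W] B'))
    (bc : ∀ {R R' : Type u} [CommRing R] [CommRing R'] [Algebra W R] [Algebra W R']
      (f : R →ₐ[W] R') (x : R ⊗[W] B),
      N R' (Algebra.TensorProduct.map f (AlgHom.id W B) x)
        = Algebra.TensorProduct.map f (AlgHom.id W B') (N R x))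
    (V : Submodule L (L ⊗[W] B')) (u : σ → L ⊗[W] B)
    (hV : ∀ e : σ → L, N L (∑ i, e i • u i) ∈ V)
    {E : Type u} [CommRing E] [Algebra L E] [Algebra W E] [IsScalarTower W L E] (e : σ → E) :
    N E (∑ i, e i • Algebra.TensorProduct.map (IsScalarTower.toAlgHom W L E) (AlgHom.id W B)
        (u i)) ∈
      Submodule.span E ((Algebra.TensorProduct.map (IsScalarTower.toAlgHom W L E)
        (AlgHom.id W B')) '' (V : Set (L ⊗[W] B'))) := by
  have key := specialize_mem_span V (N (MvPolynomial σ L) (genComb u)) (fun x => by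
    rw [← bc, map_evalW_genComb]
    simp only [map_toAlgHom_self]
    exact hV x) e
  rw [← bc, map_evalW_genComb] at key
  exact key

end Norm

end Fermat.Agent.T1B.Cmp67
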