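/-
T1B (S44), sub-cell TORIC50, brick CMP, part (3) DICT GLUE (helper67), file 7:
TRANSFER OF NORM-TRIVIALITY ALONG A FIELD EXTENSION `L → E` (polynomial trick).

Two levels `L ⊆ E` (fields over `W`, `L` infinite).  Rings `R ⊗[W] B` (source chart), `R ⊗[W] B01`
(source overlap), `R ⊗[W] Bt` (target chart), `R ⊗[W] B01t` (target overlap), `R = L, E`, with the
scoped algebra structures of `BaseChange75`.  Fields `F ⊇ L ⊗ B01`, `F' ⊇ L ⊗ B01t`,
`Fe ⊇ E ⊗ B01`, `Fe' ⊇ E ⊗ B01t` with compatible maps `φ : F → Fe`, `φ' : F' → Fe'`; norms `Nm`, `Nme`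
extending a base-change compatible family `N R : R ⊗ B01 →* R ⊗ B01t`.

* `norm_comb_mem` : the core: if `Nm(∑ l_i g_i) h ∈ L ⊗ Bt` for all `l : σ → L` then
  `Nme(∑ e_i φ(g_i)) φ'(h) ∈ E ⊗ Bt` for all `e : σ → E`;
* `chartNormTriv_baseChange` : `ChartNormTriv` passes from `I` to the `E ⊗ B`-span of `φ(I)`.
-/
import Mathlib
import Fermat.Agent.T1B.Cmp67.PolyTransfer
import Fermat.Agent.T1B.Cmp67.NormTriv
import Fermat.Agent.Jac.BaseChange75.Rings

set_option autoImplicit false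
set_option linter.unusedSectionVars false
set_option maxHeartbeats 400000

open TensorProduct

noncomputable section

namespace Fermat.Agent.T1B.Cmp67

open Fermat.Agent.Jac Fermat.Agent.Jac.BaseChange75
open scoped Fermat.Agent.Jac.BaseChange75

universe u

section Core

variable {W : Type u} [CommRing W] {L E : Type u} [Field L] [Field E] [Algebra W L] [Algebra W E]
  [Algebra L E] [IsScalarTower W L E]
  {B01 Bt B01t : Type u} [CommRing B01] [CommRing Bt] [CommRing B01t]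
  [Algebra W B01] [Algebra W Bt] [Algebra W B01t] [Algebra Bt B01t] [IsScalarTower W Bt B01t]
  {F F' Fe Fe' : Type u} [Field F] [Field F'] [Field Fe] [Field Fe']
  [Algebra (L ⊗[W] B01) F] [Algebra (L ⊗[W] Bt) F'] [Algebra (L ⊗[W] B01t) F']
  [IsScalarTower (L ⊗[W] Bt) (L ⊗[W] B01t) F']
  [Algebra (E ⊗[W] B01) Fe] [Algebra (E ⊗[W] Bt) Fe'] [Algebra (E ⊗[W] B01t) Fe']
  [IsScalarTower (E ⊗[W] Bt) (E ⊗[W] B01t) Fe']

/-- the algebra map `L ⊗ B → E ⊗ B` is the tensor map. -/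
theorem algebraMap_left_eq_map (B : Type u) [CommRing B] [Algebra W B] (z : L ⊗[W] B) :
    algebraMap (L ⊗[W] B) (E ⊗[W] B) z
      = Algebra.TensorProduct.map (IsScalarTower.toAlgHom W L E) (AlgHom.id W B) z := by
  induction z using TensorProduct.induction_on with
  | zero => simp
  | tmul l b => rw [algebraMap_left_tmul, Algebra.TensorProduct.map_tmul]; rfl
  | add x y hx hy => rw [map_add, map_add, hx, hy]

/-- scalars of the base field act through `r ⊗ 1`. -/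
theorem smul_eq_tmul_one_mul {R B : Type u} [CommRing R] [CommRing B] [Algebra W R] [Algebra W B]
    (r : R) (z : R ⊗[W] B) : r • z = (r ⊗ₜ[W] (1 : B)) * z := by
  induction z using TensorProduct.induction_on with
  | zero => simp
  | tmul a b =>
    rw [TensorProduct.smul_tmul', Algebra.TensorProduct.tmul_mul_tmul, smul_eq_mul, one_mul]
  | add x y hx hy => rw [smul_add, hx, hy, mul_add]

variable (N : ∀ (R : Type u) [CommRing R] [Algebra W R], (R ⊗[W] B01) →* (R ⊗[W] B01t))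
  (bc : ∀ {R R' : Type u} [CommRing R] [CommRing R'] [Algebra W R] [Algebra W R']
    (f : R →ₐ[W] R') (x : R ⊗[W] B01),
    N R' (Algebra.TensorProduct.map f (AlgHom.id W B01) x)
      = Algebra.TensorProduct.map f (AlgHom.id W B01t) (N R x))
  (Nm : F →* F') (Nme : Fe →* Fe')
  (hNm : ∀ u : L ⊗[W] B01, Nm (algebraMap _ F u) = algebraMap _ F' (N L u))
  (hNme : ∀ u : E ⊗[W] B01, Nme (algebraMap _ Fe u) = algebraMap _ Fe' (N E u))
  (φ : F →+* Fe) (φ' : F' →+* Fe')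
  (hφ : ∀ u : L ⊗[W] B01, φ (algebraMap _ F u)
    = algebraMap _ Fe (algebraMap (L ⊗[W] B01) (E ⊗[W] B01) u))
  (hφ' : ∀ u : L ⊗[W] B01t, φ' (algebraMap _ F' u)
    = algebraMap _ Fe' (algebraMap (L ⊗[W] B01t) (E ⊗[W] B01t) u))
  (hfrac : ∀ g : F, ∃ d u : L ⊗[W] B01, algebraMap _ F d ≠ 0 ∧
    algebraMap _ F d * g = algebraMap _ F u)

include bc hNm hNme hφ hφ' hfrac in
/-- **The core of the transfer.** -/
theorem norm_comb_mem [Infinite L] {σ : Type u} [Fintype σ] (g : σ → F) (h : F')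
    (hL : ∀ l : σ → L, ∃ t : L ⊗[W] Bt, algebraMap _ F' t
      = Nm (∑ i, algebraMap (L ⊗[W] B01) F (l i ⊗ₜ 1) * g i) * h)
    (e : σ → E) :
    ∃ t : E ⊗[W] Bt, algebraMap _ Fe' t
      = Nme (∑ i, algebraMap (E ⊗[W] B01) Fe (e i ⊗ₜ 1) * φ (g i)) * φ' h := by
  classical
  -- common denominator
  choose d0 u0 hd0 hu0 using fun i => hfrac (g i)
  set d : L ⊗[W] B01 := ∏ i, d0 i with hd
  set u : σ → L ⊗[W] B01 := fun i => u0 i * ∏ j ∈ Finset.univ.erase i, d0 j with hu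
  have hdne : algebraMap (L ⊗[W] B01) F d ≠ 0 := by
    rw [hd, map_prod]
    exact Finset.prod_ne_zero_iff.2 fun i _ => hd0 i
  have hdu : ∀ i, algebraMap (L ⊗[W] B01) F d * g i = algebraMap _ F (u i) := by
    intro i
    rw [hd, hu, ← Finset.mul_prod_erase Finset.univ d0 (Finset.mem_univ i), map_mul, map_mul,
      ← hu0 i]
    ring
  set δ : F' := Nm (algebraMap (L ⊗[W] B01) F d) with hδ
  have hδ0 : δ ≠ 0 := nm_ne_zero Nm hdne
  -- the subspace `V`
  let V : Submodule L (L ⊗[W] B01t) :=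
    { carrier := {z | ∃ t : L ⊗[W] Bt, algebraMap _ F' t = algebraMap _ F' z * h * δ⁻¹}
      add_mem' := by
        rintro a b ⟨t, ht⟩ ⟨t', ht'⟩
        exact ⟨t + t', by rw [map_add, map_add, ht, ht']; ring⟩
      zero_mem' := ⟨0, by rw [map_zero, map_zero, zero_mul, zero_mul]⟩
      smul_mem' := by
        rintro l a ⟨t, ht⟩
        refine ⟨(l ⊗ₜ[W] (1 : Bt)) * t, ?_⟩
        rw [map_mul, ht, smul_eq_tmul_one_mul, map_mul,
          IsScalarTower.algebraMap_apply (L ⊗[W] Bt) (L ⊗[W] B01t) F' (l ⊗ₜ[W] (1 : Bt)),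
          algebraMap_right_tmul, map_one]
        ring }
  have hV : ∀ l : σ → L, N L (∑ i, l i • u i) ∈ V := by
    intro l
    obtain ⟨t, ht⟩ := hL l
    refine ⟨t, ?_⟩
    rw [ht, ← hNm]
    have h1 : algebraMap (L ⊗[W] B01) F (∑ i, l i • u i)
        = algebraMap (L ⊗[W] B01) F d * ∑ i, algebraMap (L ⊗[W] B01) F (l i ⊗ₜ 1) * g i := by
      rw [map_sum, Finset.mul_sum]
      refine Finset.sum_congr rfl fun i _ => ?_
      rw [smul_eq_tmul_one_mul, map_mul, ← hdu i]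
      ring
    rw [h1, map_mul, ← hδ]
    field_simp
  have key := norm_combination_mem_span N bc V u hV e
  -- elements of the span
  have hspan : ∀ w ∈ Submodule.span E ((Algebra.TensorProduct.map (IsScalarTower.toAlgHom W L E)
      (AlgHom.id W B01t)) '' (V : Set (L ⊗[W] B01t))),
      ∃ t : E ⊗[W] Bt, algebraMap _ Fe' t = algebraMap _ Fe' w * φ' h * (φ' δ)⁻¹ := by
    intro w hw
    induction hw using Submodule.span_induction with
    | mem x hx =>
      obtain ⟨z, ⟨t, ht⟩, rfl⟩ := hx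
      refine ⟨algebraMap (L ⊗[W] Bt) (E ⊗[W] Bt) t, ?_⟩
      rw [← algebraMap_left_eq_map, ← hφ', ← map_mul, ← map_inv₀, ← map_mul, ← ht,
        IsScalarTower.algebraMap_apply (L ⊗[W] Bt) (L ⊗[W] B01t) F', hφ',
        IsScalarTower.algebraMap_apply (E ⊗[W] Bt) (E ⊗[W] B01t) Fe']
      congr 1
      exact RingHom.congr_fun (square_comm W L E Bt B01t) t
    | zero => exact ⟨0, by rw [map_zero, map_zero, zero_mul, zero_mul]⟩
    | add x y _ _ hx hy =>
      obtain ⟨t, ht⟩ := hx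
      obtain ⟨t', ht'⟩ := hy
      exact ⟨t + t', by rw [map_add, map_add, ht, ht']; ring⟩
    | smul a x _ hx =>
      obtain ⟨t, ht⟩ := hx
      refine ⟨(a ⊗ₜ[W] (1 : Bt)) * t, ?_⟩
      rw [map_mul, ht, smul_eq_tmul_one_mul, map_mul,
        IsScalarTower.algebraMap_apply (E ⊗[W] Bt) (E ⊗[W] B01t) Fe' (a ⊗ₜ[W] (1 : Bt)),
        algebraMap_right_tmul, map_one]
      ring
  obtain ⟨t, ht⟩ := hspan _ key
  refine ⟨t, ?_⟩
  rw [ht, ← hNme]
  have h2 : algebraMap (E ⊗[W] B01) Fe (∑ i, e i • Algebra.TensorProduct.map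
      (IsScalarTower.toAlgHom W L E) (AlgHom.id W B01) (u i))
      = φ (algebraMap (L ⊗[W] B01) F d) * ∑ i, algebraMap (E ⊗[W] B01) Fe (e i ⊗ₜ 1) * φ (g i) := by
    rw [map_sum, Finset.mul_sum]
    refine Finset.sum_congr rfl fun i _ => ?_
    rw [smul_eq_tmul_one_mul, map_mul, ← algebraMap_left_eq_map, ← hφ, ← hdu i, map_mul]
    ring
  have h3 : Nme (φ (algebraMap (L ⊗[W] B01) F d)) = φ' δ := by
    rw [hφ, hNme, hδ, hNm, hφ', algebraMap_left_eq_map, bc, ← algebraMap_left_eq_map]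
  have hφδ : φ' δ ≠ 0 := (map_ne_zero φ').2 hδ0
  rw [h2, map_mul, h3]
  field_simp

end Core

section Chart

variable {W : Type u} [CommRing W] {L E : Type u} [Field L] [Field E] [Algebra W L] [Algebra W E]
  [Algebra L E] [IsScalarTower W L E]
  {B B01 Bt B01t : Type u} [CommRing B] [CommRing B01] [CommRing Bt] [CommRing B01t]
  [Algebra W B] [Algebra W B01] [Algebra W Bt] [Algebra W B01t]
  [Algebra B B01] [IsScalarTower W B B01] [Algebra Bt B01t] [IsScalarTower W Bt B01t]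
  {F F' Fe Fe' : Type u} [Field F] [Field F'] [Field Fe] [Field Fe']
  [Algebra (L ⊗[W] B) F] [Algebra (L ⊗[W] B01) F] [IsScalarTower (L ⊗[W] B) (L ⊗[W] B01) F]
  [Algebra (L ⊗[W] Bt) F'] [Algebra (L ⊗[W] B01t) F']
  [IsScalarTower (L ⊗[W] Bt) (L ⊗[W] B01t) F']
  [Algebra (E ⊗[W] B) Fe] [Algebra (E ⊗[W] B01) Fe] [IsScalarTower (E ⊗[W] B) (E ⊗[W] B01) Fe]
  [Algebra (E ⊗[W] Bt) Fe'] [Algebra (E ⊗[W] B01t) Fe']
  [IsScalarTower (E ⊗[W] Bt) (E ⊗[W] B01t) Fe']

/-- `φ` is compatible with the chart rings as well. -/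
theorem phi_chart (φ : F →+* Fe)
    (hφ : ∀ u : L ⊗[W] B01, φ (algebraMap _ F u)
      = algebraMap _ Fe (algebraMap (L ⊗[W] B01) (E ⊗[W] B01) u)) (s : L ⊗[W] B) :
    φ (algebraMap _ F s) = algebraMap _ Fe (algebraMap (L ⊗[W] B) (E ⊗[W] B) s) := by
  rw [IsScalarTower.algebraMap_apply (L ⊗[W] B) (L ⊗[W] B01) F, hφ,
    IsScalarTower.algebraMap_apply (E ⊗[W] B) (E ⊗[W] B01) Fe]
  congr 1
  exact (RingHom.congr_fun (square_comm W L E B B01) s).symm

/-- Elements of the `E ⊗ B`-span of `φ(I)` are `E`-linear combinations of elements of `φ(I)`. -/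
theorem exists_rep_of_mem_span (φ : F →+* Fe)
    (hφ : ∀ u : L ⊗[W] B01, φ (algebraMap _ F u)
      = algebraMap _ Fe (algebraMap (L ⊗[W] B01) (E ⊗[W] B01) u))
    (I : Submodule (L ⊗[W] B) F) {f : Fe}
    (hf : f ∈ Submodule.span (E ⊗[W] B) (φ '' (I : Set F))) :
    ∃ (σ : Type u) (_ : Fintype σ) (e : σ → E) (g : σ → F), (∀ i, g i ∈ I) ∧
      f = ∑ i, algebraMap (E ⊗[W] B01) Fe (e i ⊗ₜ 1) * φ (g i) := by
  induction hf using Submodule.span_induction with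
  | mem x hx =>
    obtain ⟨g, hg, rfl⟩ := hx
    refine ⟨PUnit, inferInstance, fun _ => 1, fun _ => g, fun _ => hg, ?_⟩
    rw [Finset.univ_unique, Finset.sum_singleton, ← Algebra.TensorProduct.one_def, map_one,
      one_mul]
  | zero => exact ⟨PEmpty, inferInstance, PEmpty.elim, PEmpty.elim, fun i => i.elim, by simp⟩
  | add x y _ _ hx hy =>
    obtain ⟨σ, _, e, g, hg, rfl⟩ := hx
    obtain ⟨σ', _, e', g', hg', rfl⟩ := hy
    refine ⟨σ ⊕ σ', inferInstance, Sum.elim e e', Sum.elim g g', ?_, ?_⟩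
    · rintro (i | i)
      · exact hg i
      · exact hg' i
    · rw [Fintype.sum_sum_type]
      rfl
  | smul z x _ hx =>
    obtain ⟨σ, _, e, g, hg, rfl⟩ := hx
    induction z using TensorProduct.induction_on with
    | zero => exact ⟨PEmpty, inferInstance, PEmpty.elim, PEmpty.elim, fun i => i.elim, by simp⟩
    | tmul a b =>
      refine ⟨σ, inferInstance, fun i => a * e i,
        fun i => ((1 : L) ⊗ₜ[W] b : L ⊗[W] B) • g i, fun i => I.smul_mem _ (hg i), ?_⟩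
      rw [Algebra.smul_def, Finset.mul_sum]
      refine Finset.sum_congr rfl fun i _ => ?_
      show _ = algebraMap (E ⊗[W] B01) Fe ((a * e i) ⊗ₜ[W] 1) *
        φ (((1 : L) ⊗ₜ[W] b : L ⊗[W] B) • g i)
      rw [Algebra.smul_def, map_mul, phi_chart φ hφ, algebraMap_left_tmul, map_one,
        IsScalarTower.algebraMap_apply (E ⊗[W] B) (E ⊗[W] B01) Fe (a ⊗ₜ[W] b),
        IsScalarTower.algebraMap_apply (E ⊗[W] B) (E ⊗[W] B01) Fe ((1 : E) ⊗ₜ[W] b),
        algebraMap_right_tmul, algebraMap_right_tmul, ← mul_assoc, ← mul_assoc, ← map_mul,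
        ← map_mul, Algebra.TensorProduct.tmul_mul_tmul,
        Algebra.TensorProduct.tmul_mul_tmul, mul_one, one_mul, mul_one]
    | add z z' hz hz' =>
      obtain ⟨σ1, _, e1, g1, hg1, h1⟩ := hz
      obtain ⟨σ2, _, e2, g2, hg2, h2⟩ := hz'
      refine ⟨σ1 ⊕ σ2, inferInstance, Sum.elim e1 e2, Sum.elim g1 g2, ?_, ?_⟩
      · rintro (i | i)
        · exact hg1 i
        · exact hg2 i
      · rw [Fintype.sum_sum_type, add_smul, h1, h2]
        rfl

variable (N : ∀ (R : Type u) [CommRing R] [Algebra W R], (R ⊗[W] B01) →* (R ⊗[W] B01t))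
  (bc : ∀ {R R' : Type u} [CommRing R] [CommRing R'] [Algebra W R] [Algebra W R']
    (f : R →ₐ[W] R') (x : R ⊗[W] B01),
    N R' (Algebra.TensorProduct.map f (AlgHom.id W B01) x)
      = Algebra.TensorProduct.map f (AlgHom.id W B01t) (N R x))
  (Nm : F →* F') (Nme : Fe →* Fe')
  (hNm : ∀ u : L ⊗[W] B01, Nm (algebraMap _ F u) = algebraMap _ F' (N L u))
  (hNme : ∀ u : E ⊗[W] B01, Nme (algebraMap _ Fe u) = algebraMap _ Fe' (N E u))
  (φ : F →+* Fe) (φ' : F' →+* Fe')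
  (hφ : ∀ u : L ⊗[W] B01, φ (algebraMap _ F u)
    = algebraMap _ Fe (algebraMap (L ⊗[W] B01) (E ⊗[W] B01) u))
  (hφ' : ∀ u : L ⊗[W] B01t, φ' (algebraMap _ F' u)
    = algebraMap _ Fe' (algebraMap (L ⊗[W] B01t) (E ⊗[W] B01t) u))
  (hfrac : ∀ g : F, ∃ d u : L ⊗[W] B01, algebraMap _ F d ≠ 0 ∧
    algebraMap _ F d * g = algebraMap _ F u)

include bc hNm hNme hφ hφ' hfrac in
/-- norms of the `E ⊗ B`-span of `φ(I)`. -/
theorem norm_span_mem [Infinite L] (I : Submodule (L ⊗[W] B) F) (h : F')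
    (hI : ∀ f ∈ I, ∃ t : L ⊗[W] Bt, algebraMap _ F' t = Nm f * h) :
    ∀ f ∈ Submodule.span (E ⊗[W] B) (φ '' (I : Set F)),
      ∃ t : E ⊗[W] Bt, algebraMap _ Fe' t = Nme f * φ' h := by
  intro f hf
  obtain ⟨σ, _, e, g, hg, rfl⟩ := exists_rep_of_mem_span φ hφ I hf
  refine norm_comb_mem N bc Nm Nme hNm hNme φ φ' hφ hφ' hfrac g h (fun l => ?_) e
  apply hI
  refine I.sum_mem fun i _ => ?_
  have h1 : algebraMap (L ⊗[W] B01) F (l i ⊗ₜ 1) * g i
      = ((l i ⊗ₜ[W] (1 : B) : L ⊗[W] B)) • g i := by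
    rw [Algebra.smul_def, IsScalarTower.algebraMap_apply (L ⊗[W] B) (L ⊗[W] B01) F,
      algebraMap_right_tmul, map_one]
  rw [h1]
  exact I.smul_mem _ (hg i)

include bc hNm hNme hφ hφ' hfrac in
/-- **Transfer of chart-norm-triviality along `L → E`.** -/
theorem chartNormTriv_baseChange [Infinite L] (I : Submodule (L ⊗[W] B) F) (h : F')
    (hNT : ChartNormTriv Nm (L ⊗[W] Bt) I h) :
    ChartNormTriv Nme (E ⊗[W] Bt) (Submodule.span (E ⊗[W] B) (φ '' (I : Set F))) (φ' h) := by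
  obtain ⟨J, h1, hI, hJ⟩ := hNT
  refine ⟨Submodule.span (E ⊗[W] B) (φ '' (J : Set F)), ?_,
    norm_span_mem N bc Nm Nme hNm hNme φ φ' hφ hφ' hfrac I h hI, ?_⟩
  · have key : ∀ z ∈ I * J, φ z ∈ Submodule.span (E ⊗[W] B) (φ '' (I : Set F)) *
        Submodule.span (E ⊗[W] B) (φ '' (J : Set F)) := by
      intro z hz
      induction hz using Submodule.mul_induction_on' with
      | mem_mul_mem a ha b hb =>
        rw [map_mul]
        exact Submodule.mul_mem_mul (Submodule.subset_span ⟨a, ha, rfl⟩)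
          (Submodule.subset_span ⟨b, hb, rfl⟩)
      | add x _ y _ hx hy => rw [map_add]; exact Submodule.add_mem _ hx hy
    have := key 1 h1
    rwa [map_one] at this
  · have := norm_span_mem N bc Nm Nme hNm hNme φ φ' hφ hφ' hfrac J h⁻¹ hJ
    rwa [map_inv₀] at this

end Chart

section Line

open Fermat.Agent.Jac.JSmooth85Alg Fermat.Agent.T1B.Hol31.Frame

variable {W : Type u} [CommRing W] {L E : Type u} [Field L] [Field E] [Algebra W L] [Algebra W E]
  [Algebra L E] [IsScalarTower W L E]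
  {B0 B1 B01 B0t B1t B01t : Type u} [CommRing B0] [CommRing B1] [CommRing B01]
  [CommRing B0t] [CommRing B1t] [CommRing B01t]
  [Algebra W B0] [Algebra W B1] [Algebra W B01] [Algebra W B0t] [Algebra W B1t] [Algebra W B01t]
  [Algebra B0 B01] [IsScalarTower W B0 B01] [Algebra B1 B01] [IsScalarTower W B1 B01]
  [Algebra B0t B01t] [IsScalarTower W B0t B01t] [Algebra B1t B01t] [IsScalarTower W B1t B01t]
  {F F' Fe Fe' : Type u} [Field F] [Field F'] [Field Fe] [Field Fe']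
  [Algebra (L ⊗[W] B0) F] [Algebra (L ⊗[W] B1) F] [Algebra (L ⊗[W] B01) F]
  [IsScalarTower (L ⊗[W] B0) (L ⊗[W] B01) F] [IsScalarTower (L ⊗[W] B1) (L ⊗[W] B01) F]
  [Algebra (L ⊗[W] B0t) F'] [Algebra (L ⊗[W] B1t) F'] [Algebra (L ⊗[W] B01t) F']
  [IsScalarTower (L ⊗[W] B0t) (L ⊗[W] B01t) F'] [IsScalarTower (L ⊗[W] B1t) (L ⊗[W] B01t) F']
  [Algebra (E ⊗[W] B0) Fe] [Algebra (E ⊗[W] B1) Fe] [Algebra (E ⊗[W] B01) Fe]
  [IsScalarTower (E ⊗[W] B0) (E ⊗[W] B01) Fe] [IsScalarTower (E ⊗[W] B1) (E ⊗[W] B01) Fe]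
  [Algebra (E ⊗[W] B0t) Fe'] [Algebra (E ⊗[W] B1t) Fe'] [Algebra (E ⊗[W] B01t) Fe']
  [IsScalarTower (E ⊗[W] B0t) (E ⊗[W] B01t) Fe'] [IsScalarTower (E ⊗[W] B1t) (E ⊗[W] B01t) Fe']

variable {ML : QC2 L (L ⊗[W] B0) (L ⊗[W] B1) (L ⊗[W] B01)}
  {ME : QC2 E (E ⊗[W] B0) (E ⊗[W] B1) (E ⊗[W] B01)}

/-- The base change of a framing along `L → E`. -/
def framingBC (φ : F →+* Fe)
    (hφ : ∀ u : L ⊗[W] B01, φ (algebraMap _ F u)
      = algebraMap _ Fe (algebraMap (L ⊗[W] B01) (E ⊗[W] B01) u))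
    (h : LiftData ML ME) (ε : ML.N01 →ₗ[L ⊗[W] B01] F) : ME.N01 →ₗ[E ⊗[W] B01] Fe :=
  letI : Module (L ⊗[W] B01) Fe := Module.compHom Fe
    ((algebraMap (E ⊗[W] B01) Fe).comp (algebraMap (L ⊗[W] B01) (E ⊗[W] B01)))
  haveI : IsScalarTower (L ⊗[W] B01) (E ⊗[W] B01) Fe :=
    IsScalarTower.of_algebraMap_smul (fun r x => by rw [Algebra.smul_def]; rfl)
  let ψ : ML.N01 →ₗ[L ⊗[W] B01] Fe :=
    { toFun := fun n => φ (ε n)
      map_add' := fun a b => by rw [map_add, map_add]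
      map_smul' := fun r n => by
        rw [map_smul, Algebra.smul_def, map_mul, hφ]
        rfl }
  (LinearMap.liftBaseChange (E ⊗[W] B01) ψ).comp h.e01.symm.toLinearMap

theorem framingBC_apply (φ : F →+* Fe)
    (hφ : ∀ u : L ⊗[W] B01, φ (algebraMap _ F u)
      = algebraMap _ Fe (algebraMap (L ⊗[W] B01) (E ⊗[W] B01) u))
    (h : LiftData ML ME) (ε : ML.N01 →ₗ[L ⊗[W] B01] F) (n : ML.N01) :
    framingBC φ hφ h ε (h.e01 (1 ⊗ₜ n)) = φ (ε n) := by
  unfold framingBC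
  simp only [LinearMap.coe_comp, LinearEquiv.coe_coe, Function.comp_apply,
    LinearEquiv.symm_apply_apply, LinearMap.liftBaseChange_tmul, LinearMap.coe_mk,
    AddHom.coe_mk, one_smul]

theorem framingBC_ne_zero (φ : F →+* Fe)
    (hφ : ∀ u : L ⊗[W] B01, φ (algebraMap _ F u)
      = algebraMap _ Fe (algebraMap (L ⊗[W] B01) (E ⊗[W] B01) u))
    (h : LiftData ML ME) {ε : ML.N01 →ₗ[L ⊗[W] B01] F} (hε : ε ≠ 0) :
    framingBC φ hφ h ε ≠ 0 := by
  intro h0
  apply hε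
  ext n
  have h1 := framingBC_apply φ hφ h ε n
  rw [h0, LinearMap.zero_apply] at h1
  rw [LinearMap.zero_apply]
  exact (map_eq_zero φ).1 h1.symm

/-- the chart-`0` frame of the base change is the span of the image of the frame. -/
theorem frame0_framingBC (φ : F →+* Fe)
    (hφ : ∀ u : L ⊗[W] B01, φ (algebraMap _ F u)
      = algebraMap _ Fe (algebraMap (L ⊗[W] B01) (E ⊗[W] B01) u))
    (h : LiftData ML ME) (ε : ML.N01 →ₗ[L ⊗[W] B01] F) :
    frame0 ME (framingBC φ hφ h ε)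
      = Submodule.span (E ⊗[W] B0) (φ '' (frame0 ML ε : Set F)) := by
  have hval : ∀ (s : E ⊗[W] B0) (x : ML.N0),
      framingBC φ hφ h ε (ME.r0 (h.e0 (s ⊗ₜ x))) = s • φ (ε (ML.r0 x)) := by
    intro s x
    have h1 : h.e0 (s ⊗ₜ x) = s • h.e0 (1 ⊗ₜ x) := by
      rw [← map_smul, TensorProduct.smul_tmul', smul_eq_mul, mul_one]
    rw [h1, map_smul, ← h.comm0, ← algebraMap_smul (E ⊗[W] B01) s, map_smul, framingBC_apply,
      algebraMap_smul]
  apply le_antisymm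
  · intro z hz
    obtain ⟨y, rfl⟩ := mem_frame0.1 hz
    obtain ⟨w, rfl⟩ := h.e0.surjective y
    induction w using TensorProduct.induction_on with
    | zero => rw [map_zero, map_zero, map_zero]; exact Submodule.zero_mem _
    | tmul s x =>
      rw [hval]
      exact Submodule.smul_mem _ _ (Submodule.subset_span ⟨_, mem_frame0.2 ⟨x, rfl⟩, rfl⟩)
    | add a b ha hb =>
      rw [map_add, map_add, map_add]
      exact Submodule.add_mem _ (ha (mem_frame0.2 ⟨_, rfl⟩)) (hb (mem_frame0.2 ⟨_, rfl⟩))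
  · rw [Submodule.span_le]
    rintro _ ⟨g, hg, rfl⟩
    obtain ⟨x, rfl⟩ := mem_frame0.1 hg
    refine mem_frame0.2 ⟨h.e0 (1 ⊗ₜ x), ?_⟩
    rw [hval, one_smul]

/-- the chart-`1` frame of the base change is the span of the image of the frame. -/
theorem frame1_framingBC (φ : F →+* Fe)
    (hφ : ∀ u : L ⊗[W] B01, φ (algebraMap _ F u)
      = algebraMap _ Fe (algebraMap (L ⊗[W] B01) (E ⊗[W] B01) u))
    (h : LiftData ML ME) (ε : ML.N01 →ₗ[L ⊗[W] B01] F) :
    frame1 ME (framingBC φ hφ h ε)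
      = Submodule.span (E ⊗[W] B1) (φ '' (frame1 ML ε : Set F)) := by
  have hval : ∀ (s : E ⊗[W] B1) (x : ML.N1),
      framingBC φ hφ h ε (ME.r1 (h.e1 (s ⊗ₜ x))) = s • φ (ε (ML.r1 x)) := by
    intro s x
    have h1 : h.e1 (s ⊗ₜ x) = s • h.e1 (1 ⊗ₜ x) := by
      rw [← map_smul, TensorProduct.smul_tmul', smul_eq_mul, mul_one]
    rw [h1, map_smul, ← h.comm1, ← algebraMap_smul (E ⊗[W] B01) s, map_smul, framingBC_apply,
      algebraMap_smul]
  apply le_antisymm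
  · intro z hz
    obtain ⟨y, rfl⟩ := mem_frame1.1 hz
    obtain ⟨w, rfl⟩ := h.e1.surjective y
    induction w using TensorProduct.induction_on with
    | zero => rw [map_zero, map_zero, map_zero]; exact Submodule.zero_mem _
    | tmul s x =>
      rw [hval]
      exact Submodule.smul_mem _ _ (Submodule.subset_span ⟨_, mem_frame1.2 ⟨x, rfl⟩, rfl⟩)
    | add a b ha hb =>
      rw [map_add, map_add, map_add]
      exact Submodule.add_mem _ (ha (mem_frame1.2 ⟨_, rfl⟩)) (hb (mem_frame1.2 ⟨_, rfl⟩))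
  · rw [Submodule.span_le]
    rintro _ ⟨g, hg, rfl⟩
    obtain ⟨x, rfl⟩ := mem_frame1.1 hg
    refine mem_frame1.2 ⟨h.e1 (1 ⊗ₜ x), ?_⟩
    rw [hval, one_smul]

variable (N : ∀ (R : Type u) [CommRing R] [Algebra W R], (R ⊗[W] B01) →* (R ⊗[W] B01t))
  (bc : ∀ {R R' : Type u} [CommRing R] [CommRing R'] [Algebra W R] [Algebra W R']
    (f : R →ₐ[W] R') (x : R ⊗[W] B01),
    N R' (Algebra.TensorProduct.map f (AlgHom.id W B01) x)
      = Algebra.TensorProduct.map f (AlgHom.id W B01t) (N R x))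
  (Nm : F →* F') (Nme : Fe →* Fe')
  (hNm : ∀ u : L ⊗[W] B01, Nm (algebraMap _ F u) = algebraMap _ F' (N L u))
  (hNme : ∀ u : E ⊗[W] B01, Nme (algebraMap _ Fe u) = algebraMap _ Fe' (N E u))
  (φ : F →+* Fe) (φ' : F' →+* Fe')
  (hφ : ∀ u : L ⊗[W] B01, φ (algebraMap _ F u)
    = algebraMap _ Fe (algebraMap (L ⊗[W] B01) (E ⊗[W] B01) u))
  (hφ' : ∀ u : L ⊗[W] B01t, φ' (algebraMap _ F' u)
    = algebraMap _ Fe' (algebraMap (L ⊗[W] B01t) (E ⊗[W] B01t) u))
  (hfrac : ∀ g : F, ∃ d u : L ⊗[W] B01, algebraMap _ F d ≠ 0 ∧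
    algebraMap _ F d * g = algebraMap _ F u)

include bc hNm hNme hφ hφ' hfrac in
/-- **Norm-triviality of a framed line passes to its base change along `L → E`.** -/
theorem normTriv_baseChange [Infinite L] (h : LiftData ML ME)
    (hNT : NormTriv Nm (L ⊗[W] B0t) (L ⊗[W] B1t) ML) :
    NormTriv Nme (E ⊗[W] B0t) (E ⊗[W] B1t) ME := by
  obtain ⟨ε, k, hε, hk, h0, h1⟩ := hNT
  refine ⟨framingBC φ hφ h ε, φ' k, framingBC_ne_zero φ hφ h hε, (map_ne_zero φ').2 hk, ?_, ?_⟩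
  · rw [frame0_framingBC]
    exact chartNormTriv_baseChange N bc Nm Nme hNm hNme φ φ' hφ hφ' hfrac _ k h0
  · rw [frame1_framingBC]
    exact chartNormTriv_baseChange N bc Nm Nme hNm hNme φ φ' hφ hφ' hfrac _ k h1

end Line

end Fermat.Agent.T1B.Cmp67
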