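/-
T1B (S44), sub-cell TORIC50, brick CMP, part (3) DICT GLUE (helper67), file 10:
FROM A NORM-TRIVIAL GLOBAL LINE TO helper15's `GenericHyp`.

Three levels over `W`: `O` (a domain, in the application the complete DVR `O_E`), `E ⊇ O` a field of
fractions of `O`, and `L ⊆ E` an infinite field (the number field of the dictionary).  Lines `MO`
over `O`, `ML` over `L` with a common base change `ME` over `E` (`LiftData MO ME`, `LiftData ML ME`,
i.e. `PicX.map c0 O E [MO] = PicX.map c0 L E [ML]`).  If `ML` is norm-trivial (`NormTriv`, an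
`L`-level statement proved with divisors over `ℚ̄`), then `MO` satisfies `Cmp15.GenericHyp`, the
hypothesis of `Cmp15.cmp_core`.
-/
import Mathlib
import Fermat.Agent.T1B.Cmp15.Core
import Fermat.Agent.T1B.Cmp67.Transfer
import Fermat.Agent.T1B.Cmp67.FrameInj

set_option autoImplicit false
set_option linter.unusedSectionVars false
set_option maxHeartbeats 1000000

open TensorProduct

noncomputable section

namespace Fermat.Agent.T1B.Cmp67

open Fermat.Agent.Jac Fermat.Agent.Jac.JSmooth85Alg Fermat.Agent.Jac.BaseChange75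
open Fermat.Agent.T1.CechFormal70 Fermat.Agent.T1B.Toric11 Fermat.Agent.T1B.Hol31.Frame
open scoped Fermat.Agent.Jac.BaseChange75

universe u

/-- the algebra map `R ⊗ B → R' ⊗ B` is the tensor map (general rings). -/
theorem algebraMap_left_eq_map' {W : Type u} [CommRing W] {R R' : Type u} [CommRing R]
    [CommRing R'] [Algebra W R] [Algebra W R'] [Algebra R R'] [IsScalarTower W R R']
    (B : Type u) [CommRing B] [Algebra W B] (z : R ⊗[W] B) :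
    algebraMap (R ⊗[W] B) (R' ⊗[W] B) z
      = Algebra.TensorProduct.map (IsScalarTower.toAlgHom W R R') (AlgHom.id W B) z := by
  induction z using TensorProduct.induction_on with
  | zero => simp
  | tmul l b => rw [algebraMap_left_tmul, Algebra.TensorProduct.map_tmul]; rfl
  | add x y hx hy => rw [map_add, map_add, hx, hy]

variable {W : Type u} [CommRing W]
  {B0 B1 B01 B0' B1' B01' : Type u} [CommRing B0] [CommRing B1] [CommRing B01]
  [CommRing B0'] [CommRing B1'] [CommRing B01']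
  [Algebra W B0] [Algebra W B1] [Algebra W B01] [Algebra W B0'] [Algebra W B1'] [Algebra W B01']
  [Algebra B0 B01] [IsScalarTower W B0 B01] [Algebra B1 B01] [IsScalarTower W B1 B01]
  [Algebra B0' B01'] [IsScalarTower W B0' B01'] [Algebra B1' B01'] [IsScalarTower W B1' B01']
  {g g' : ℕ} {D : CechData W B0 B1 B01 g} {D' : CechData W B0' B1' B01' g'}
  (hρ0' : ∀ x, D'.ρ0 x = algebraMap B0' B01' x) (hρ1' : ∀ x, D'.ρ1 x = algebraMap B1' B01' x)
  (S : NormSys D D')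
  {O : Type u} [CommRing O] [IsDomain O] [Algebra W O]
  {L E : Type u} [Field L] [Field E] [Algebra W L] [Algebra W E] [Algebra L E]
  [IsScalarTower W L E] [Algebra O E] [IsScalarTower W O E]
  {F F' Fe Fe' : Type u} [Field F] [Field F'] [Field Fe] [Field Fe']
  [Algebra (L ⊗[W] B0) F] [Algebra (L ⊗[W] B1) F] [Algebra (L ⊗[W] B01) F]
  [IsScalarTower (L ⊗[W] B0) (L ⊗[W] B01) F] [IsScalarTower (L ⊗[W] B1) (L ⊗[W] B01) F]
  [Algebra (L ⊗[W] B0') F'] [Algebra (L ⊗[W] B1') F'] [Algebra (L ⊗[W] B01') F']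
  [IsScalarTower (L ⊗[W] B0') (L ⊗[W] B01') F'] [IsScalarTower (L ⊗[W] B1') (L ⊗[W] B01') F']
  [Algebra (E ⊗[W] B0) Fe] [Algebra (E ⊗[W] B1) Fe] [Algebra (E ⊗[W] B01) Fe]
  [IsScalarTower (E ⊗[W] B0) (E ⊗[W] B01) Fe] [IsScalarTower (E ⊗[W] B1) (E ⊗[W] B01) Fe]
  [Algebra (E ⊗[W] B0') Fe'] [Algebra (E ⊗[W] B1') Fe'] [Algebra (E ⊗[W] B01') Fe']
  [IsScalarTower (E ⊗[W] B0') (E ⊗[W] B01') Fe'] [IsScalarTower (E ⊗[W] B1') (E ⊗[W] B01') Fe']

variable (O E Fe) in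
/-- `O ⊗ B01 → E ⊗ B01 → Fe`. -/
def iotaO : O ⊗[W] B01 →+* Fe :=
  (algebraMap (E ⊗[W] B01) Fe).comp (algebraMap (O ⊗[W] B01) (E ⊗[W] B01))

variable (O E Fe') in
/-- `O ⊗ B01' → E ⊗ B01' → Fe'`. -/
def iotaO' : O ⊗[W] B01' →+* Fe' :=
  (algebraMap (E ⊗[W] B01') Fe').comp (algebraMap (O ⊗[W] B01') (E ⊗[W] B01'))

/-- one chart of `int`/`inv`: an element of `E ⊗ Bt` in the image of `O ⊗ Bt` up to a denominator. -/
theorem exists_int_of_mem {Bt : Type u} [CommRing Bt] [Algebra W Bt] [Algebra Bt B01']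
    [IsScalarTower W Bt B01'] [Algebra (E ⊗[W] Bt) Fe']
    [IsScalarTower (E ⊗[W] Bt) (E ⊗[W] B01') Fe']
    (hfracOE : ∀ e : E, ∃ c : O, c ≠ 0 ∧ ∃ o : O, algebraMap O E o = algebraMap O E c * e)
    (t : E ⊗[W] Bt) :
    ∃ c : O, c ≠ 0 ∧ ∃ z : O ⊗[W] Bt,
      iotaO' O E Fe' (algebraMap (O ⊗[W] Bt) (O ⊗[W] B01') z)
        = iotaO' O E Fe' (algebraMap O (O ⊗[W] B01') c) * algebraMap (E ⊗[W] Bt) Fe' t := by
  obtain ⟨c, hc, z, hz⟩ := exists_denominator (W := W) hfracOE Bt t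
  refine ⟨c, hc, z, ?_⟩
  unfold iotaO'
  have hsq : algebraMap (O ⊗[W] B01') (E ⊗[W] B01') (algebraMap (O ⊗[W] Bt) (O ⊗[W] B01') z)
      = algebraMap (E ⊗[W] Bt) (E ⊗[W] B01') (algebraMap (O ⊗[W] Bt) (E ⊗[W] Bt) z) :=
    (RingHom.congr_fun (square_comm W O E Bt B01') z).symm
  rw [RingHom.comp_apply, RingHom.comp_apply, hsq,
    ← IsScalarTower.algebraMap_apply (E ⊗[W] Bt) (E ⊗[W] B01') Fe', algebraMap_left_eq_map', hz,
    map_mul, Algebra.TensorProduct.algebraMap_apply, algebraMap_left_tmul,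
    IsScalarTower.algebraMap_apply (E ⊗[W] Bt) (E ⊗[W] B01') Fe' (algebraMap O E c ⊗ₜ[W] (1 : Bt)),
    algebraMap_right_tmul, map_one]
  rfl

variable {MO : QC2 O (O ⊗[W] B0) (O ⊗[W] B1) (O ⊗[W] B01)}
  {ML : QC2 L (L ⊗[W] B0) (L ⊗[W] B1) (L ⊗[W] B01)}
  {ME : QC2 E (E ⊗[W] B0) (E ⊗[W] B1) (E ⊗[W] B01)}

/-- the restriction of a framing of `ME` to `MO`, as an additive map. -/
def thetaO (hO : LiftData MO ME) (ε : ME.N01 →ₗ[E ⊗[W] B01] Fe) : MO.N01 →+ Fe where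
  toFun x := ε (hO.e01 (1 ⊗ₜ x))
  map_zero' := by rw [TensorProduct.tmul_zero, map_zero, map_zero]
  map_add' x y := by rw [TensorProduct.tmul_add, map_add, map_add]

theorem thetaO_apply (hO : LiftData MO ME) (ε : ME.N01 →ₗ[E ⊗[W] B01] Fe) (x : MO.N01) :
    thetaO hO ε x = ε (hO.e01 (1 ⊗ₜ x)) := rfl

theorem thetaO_smul (hO : LiftData MO ME) (ε : ME.N01 →ₗ[E ⊗[W] B01] Fe) (c : O ⊗[W] B01)
    (x : MO.N01) : thetaO hO ε (c • x) = iotaO O E Fe c * thetaO hO ε x := by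
  rw [thetaO_apply, thetaO_apply]
  have h1 : ((1 : E ⊗[W] B01) ⊗ₜ[O ⊗[W] B01] (c • x))
      = algebraMap (O ⊗[W] B01) (E ⊗[W] B01) c • ((1 : E ⊗[W] B01) ⊗ₜ[O ⊗[W] B01] x) := by
    rw [TensorProduct.smul_tmul', smul_eq_mul, mul_one, Algebra.algebraMap_eq_smul_one,
      TensorProduct.smul_tmul]
  rw [h1, map_smul, map_smul, Algebra.smul_def]
  rfl

theorem thetaO_r0 (hO : LiftData MO ME) (ε : ME.N01 →ₗ[E ⊗[W] B01] Fe) (x : MO.N0) :
    thetaO hO ε (MO.r0 x) = ε (ME.r0 (hO.e0 (1 ⊗ₜ x))) := by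
  rw [thetaO_apply, hO.comm0]

theorem thetaO_r1 (hO : LiftData MO ME) (ε : ME.N01 →ₗ[E ⊗[W] B01] Fe) (x : MO.N1) :
    thetaO hO ε (MO.r1 x) = ε (ME.r1 (hO.e1 (1 ⊗ₜ x))) := by
  rw [thetaO_apply, hO.comm1]

/-- chart `0`: `γ · θ(r0 N0) ⊆ O ⊗ B0` implies `γ · frame0 ME ε ⊆ E ⊗ B0`. -/
theorem mul_frame0_subset (hO : LiftData MO ME) (ε : ME.N01 →ₗ[E ⊗[W] B01] Fe) (γ : Fe)
    (hγ : ∀ x : MO.N0, ∃ a : O ⊗[W] B0,
      γ * thetaO hO ε (MO.r0 x) = iotaO O E Fe (algebraMap (O ⊗[W] B0) (O ⊗[W] B01) a)) :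
    ∀ f ∈ frame0 ME ε, ∃ r : E ⊗[W] B0, γ * f = algebraMap (E ⊗[W] B0) Fe r := by
  intro f hf
  obtain ⟨y, rfl⟩ := mem_frame0.1 hf
  obtain ⟨w, rfl⟩ := hO.e0.surjective y
  induction w using TensorProduct.induction_on with
  | zero => exact ⟨0, by rw [map_zero, map_zero, map_zero, mul_zero, map_zero]⟩
  | tmul s x =>
    obtain ⟨a, ha⟩ := hγ x
    refine ⟨s * algebraMap (O ⊗[W] B0) (E ⊗[W] B0) a, ?_⟩
    have h1 : hO.e0 (s ⊗ₜ x) = s • hO.e0 (1 ⊗ₜ x) := by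
      rw [← map_smul, TensorProduct.smul_tmul', smul_eq_mul, mul_one]
    rw [h1, map_smul, ← algebraMap_smul (E ⊗[W] B01) s, map_smul, ← thetaO_r0, Algebra.smul_def,
      mul_left_comm, ha, map_mul, ← IsScalarTower.algebraMap_apply]
    congr 1
    unfold iotaO
    rw [RingHom.comp_apply, IsScalarTower.algebraMap_apply (E ⊗[W] B0) (E ⊗[W] B01) Fe]
    congr 1
    exact (RingHom.congr_fun (square_comm W O E B0 B01) a).symm
  | add a b ha hb =>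
    obtain ⟨r, hr⟩ := ha (mem_frame0.2 ⟨_, rfl⟩)
    obtain ⟨r', hr'⟩ := hb (mem_frame0.2 ⟨_, rfl⟩)
    exact ⟨r + r', by rw [map_add, map_add, map_add, mul_add, hr, hr', map_add]⟩

/-- chart `1`. -/
theorem mul_frame1_subset (hO : LiftData MO ME) (ε : ME.N01 →ₗ[E ⊗[W] B01] Fe) (γ : Fe)
    (hγ : ∀ x : MO.N1, ∃ a : O ⊗[W] B1,
      γ * thetaO hO ε (MO.r1 x) = iotaO O E Fe (algebraMap (O ⊗[W] B1) (O ⊗[W] B01) a)) :
    ∀ f ∈ frame1 ME ε, ∃ r : E ⊗[W] B1, γ * f = algebraMap (E ⊗[W] B1) Fe r := by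
  intro f hf
  obtain ⟨y, rfl⟩ := mem_frame1.1 hf
  obtain ⟨w, rfl⟩ := hO.e1.surjective y
  induction w using TensorProduct.induction_on with
  | zero => exact ⟨0, by rw [map_zero, map_zero, map_zero, mul_zero, map_zero]⟩
  | tmul s x =>
    obtain ⟨a, ha⟩ := hγ x
    refine ⟨s * algebraMap (O ⊗[W] B1) (E ⊗[W] B1) a, ?_⟩
    have h1 : hO.e1 (s ⊗ₜ x) = s • hO.e1 (1 ⊗ₜ x) := by
      rw [← map_smul, TensorProduct.smul_tmul', smul_eq_mul, mul_one]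
    rw [h1, map_smul, ← algebraMap_smul (E ⊗[W] B01) s, map_smul, ← thetaO_r1, Algebra.smul_def,
      mul_left_comm, ha, map_mul, ← IsScalarTower.algebraMap_apply]
    congr 1
    unfold iotaO
    rw [RingHom.comp_apply, IsScalarTower.algebraMap_apply (E ⊗[W] B1) (E ⊗[W] B01) Fe]
    congr 1
    exact (RingHom.congr_fun (square_comm W O E B1 B01) a).symm
  | add a b ha hb =>
    obtain ⟨r, hr⟩ := ha (mem_frame1.2 ⟨_, rfl⟩)
    obtain ⟨r', hr'⟩ := hb (mem_frame1.2 ⟨_, rfl⟩)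
    exact ⟨r + r', by rw [map_add, map_add, map_add, mul_add, hr, hr', map_add]⟩

include hρ0' hρ1' in
/-- **From norm-triviality over `E` to `GenericHyp` over `O`.** -/
theorem genericHyp_of_normTriv_E
    (hfracOE : ∀ e : E, ∃ c : O, c ≠ 0 ∧ ∃ o : O, algebraMap O E o = algebraMap O E c * e)
    (Nme : Fe →* Fe')
    (hNme : ∀ u : E ⊗[W] B01, Nme (algebraMap _ Fe u) = algebraMap _ Fe' (S.N01 E u))
    (hinjOE : Function.Injective (algebraMap (O ⊗[W] B01) (E ⊗[W] B01)))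
    (hinjE : Function.Injective (algebraMap (E ⊗[W] B01) Fe))
    (hι' : Function.Injective (iotaO' O E Fe' (W := W) (B01' := B01')))
    (hMO : MO.IsLine) (hO : LiftData MO ME)
    (hNT : NormTriv Nme (E ⊗[W] B0') (E ⊗[W] B1') ME) :
    ∃ (θ : MO.N01 →+ Fe) (h : Fe'),
      Cmp15.GenericHyp S O MO (iotaO O E Fe) (iotaO' O E Fe') Nme θ h := by
  obtain ⟨ε, k, hε, hk, ⟨J0, h10, hI0, hJ0⟩, ⟨J1, h11, hI1, hJ1⟩⟩ := hNT
  have hME : ME.IsLine := LiftData.isLine hO hMO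
  refine ⟨thetaO hO ε, k, ?_⟩
  refine
    { ι'_inj := hι'
      NF_ι := ?_
      θ_smul := thetaO_smul hO ε
      θ_inj := ?_
      h_ne := hk
      int0 := ?_
      int1 := ?_
      inv0 := ?_
      inv1 := ?_ }
  · intro x
    unfold iotaO iotaO'
    rw [RingHom.comp_apply, RingHom.comp_apply, hNme, algebraMap_left_eq_map',
      algebraMap_left_eq_map', S.bc01]
  · intro x hx
    have := hMO.inv0
    have := hME.inv0
    haveI : Module.Invertible (O ⊗[W] B01) MO.N01 := Module.Invertible.congr MO.bc0.equiv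
    haveI : Module.Invertible (E ⊗[W] B01) ME.N01 := Module.Invertible.congr ME.bc0.equiv
    have h1 := framing_injective hinjE ε hε
    have h2 := one_tmul_injective hinjOE (N := MO.N01)
    rw [thetaO_apply] at hx
    have h3 : hO.e01 ((1 : E ⊗[W] B01) ⊗ₜ[O ⊗[W] B01] x) = 0 := h1 (by rw [hx, map_zero])
    have h4 : ((1 : E ⊗[W] B01) ⊗ₜ[O ⊗[W] B01] x) = 0 :=
      hO.e01.injective (by rw [h3, map_zero])
    exact h2 (by simpa using h4)
  · intro x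
    obtain ⟨t, ht⟩ := hI0 _ (mem_frame0.2 ⟨hO.e0 (1 ⊗ₜ x), rfl⟩)
    obtain ⟨c, hc, z, hz⟩ := exists_int_of_mem (Fe' := Fe') (B01' := B01') hfracOE t
    refine ⟨c, hc, z, ?_⟩
    rw [Fermat.Agent.T1.Red11.pkg_r0_eq_algebraMap D' hρ0' O, hz, ht, thetaO_r0]
  · intro x
    obtain ⟨t, ht⟩ := hI1 _ (mem_frame1.2 ⟨hO.e1 (1 ⊗ₜ x), rfl⟩)
    obtain ⟨c, hc, z, hz⟩ := exists_int_of_mem (Fe' := Fe') (B01' := B01') hfracOE t
    refine ⟨c, hc, z, ?_⟩
    rw [Fermat.Agent.T1.Red11.pkg_r1_eq_algebraMap D' hρ1' O, hz, ht, thetaO_r1]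
  · intro γ hγ
    have hγJ : γ ∈ J0 := mem_of_mul_subset h10 (mul_frame0_subset hO ε γ hγ)
    obtain ⟨t, ht⟩ := hJ0 _ hγJ
    obtain ⟨c, hc, z, hz⟩ := exists_int_of_mem (Fe' := Fe') (B01' := B01') hfracOE t
    refine ⟨c, hc, z, ?_⟩
    rw [Fermat.Agent.T1.Red11.pkg_r0_eq_algebraMap D' hρ0' O, hz, ht]
  · intro γ hγ
    have hγJ : γ ∈ J1 := mem_of_mul_subset h11 (mul_frame1_subset hO ε γ hγ)
    obtain ⟨t, ht⟩ := hJ1 _ hγJ
    obtain ⟨c, hc, z, hz⟩ := exists_int_of_mem (Fe' := Fe') (B01' := B01') hfracOE t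
    refine ⟨c, hc, z, ?_⟩
    rw [Fermat.Agent.T1.Red11.pkg_r1_eq_algebraMap D' hρ1' O, hz, ht]

include hρ0' hρ1' in
/-- **From a norm-trivial global line over `L` to `GenericHyp` over `O`.** -/
theorem genericHyp_of_normTriv [Infinite L]
    (hfracOE : ∀ e : E, ∃ c : O, c ≠ 0 ∧ ∃ o : O, algebraMap O E o = algebraMap O E c * e)
    (Nm : F →* F') (Nme : Fe →* Fe')
    (hNm : ∀ u : L ⊗[W] B01, Nm (algebraMap _ F u) = algebraMap _ F' (S.N01 L u))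
    (hNme : ∀ u : E ⊗[W] B01, Nme (algebraMap _ Fe u) = algebraMap _ Fe' (S.N01 E u))
    (φ : F →+* Fe) (φ' : F' →+* Fe')
    (hφ : ∀ u : L ⊗[W] B01, φ (algebraMap _ F u)
      = algebraMap _ Fe (algebraMap (L ⊗[W] B01) (E ⊗[W] B01) u))
    (hφ' : ∀ u : L ⊗[W] B01', φ' (algebraMap _ F' u)
      = algebraMap _ Fe' (algebraMap (L ⊗[W] B01') (E ⊗[W] B01') u))
    (hfrac : ∀ g : F, ∃ d u : L ⊗[W] B01, algebraMap _ F d ≠ 0 ∧
      algebraMap _ F d * g = algebraMap _ F u)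
    (hinjOE : Function.Injective (algebraMap (O ⊗[W] B01) (E ⊗[W] B01)))
    (hinjE : Function.Injective (algebraMap (E ⊗[W] B01) Fe))
    (hι' : Function.Injective (iotaO' O E Fe' (W := W) (B01' := B01')))
    (hMO : MO.IsLine) (hO : LiftData MO ME) (hL : LiftData ML ME)
    (hNT : NormTriv Nm (L ⊗[W] B0') (L ⊗[W] B1') ML) :
    ∃ (θ : MO.N01 →+ Fe) (h : Fe'),
      Cmp15.GenericHyp S O MO (iotaO O E Fe) (iotaO' O E Fe') Nme θ h :=
  genericHyp_of_normTriv_E hρ0' hρ1' S hfracOE Nme hNme hinjOE hinjE hι' hMO hO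
    (normTriv_baseChange (fun R _ _ => S.N01 R) (fun f x => S.bc01 f x) Nm Nme hNm hNme φ φ' hφ hφ'
      hfrac hL hNT)

end Fermat.Agent.T1B.Cmp67
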