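/-
T1B (S44), sub-cell TORIC50, brick CMP, part (3) DICT GLUE (helper67), file 13:
**CMP, ABSTRACT FORM** = `Cmp15.cmp_core` ∘ `genericHyp_of_normTriv`.

Three levels over `W`: the DVR `O` (uniformiser `ϖ`), its field of fractions `E`, and an infinite
field `L ⊆ E` (the number field of the dictionary).  For `y ∈ J̃1(O)` and a class `xL` on `X_L` with
the same image on `X_E`:  if (a representative of) `xL` is NORM-TRIVIAL (`NormTriv`, the `L`-level
statement coming from `π x = 0` through the divisor dictionary), then `y` lies in the formal kernel of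
the Čech norm:  `∀ n, S.βn 𝔪 n (uJ n y) = 1`.
-/
import Mathlib
import Fermat.Agent.T1B.Cmp15.Main
import Fermat.Agent.T1B.Cmp67.Generic
import Fermat.Agent.T1.Red11.MapComp

set_option autoImplicit false
set_option linter.unusedSectionVars false
set_option maxHeartbeats 1000000

open TensorProduct

noncomputable section

namespace Fermat.Agent.T1B.Cmp67

open Fermat.Agent.Jac Fermat.Agent.Jac.JSmooth85Alg Fermat.Agent.Jac.JGroup85Pic
open Fermat.Agent.Jac.BaseChange75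
open Fermat.Agent.T1.RedIface75 Fermat.Agent.T1.Red11 Fermat.Agent.T1.CechFormal70
open Fermat.Agent.T1B.Toric11 Fermat.Agent.T1B.Hol31.Frame
open scoped Fermat.Agent.Jac.BaseChange75

universe u

variable {W : Type u} [CommRing W]
  {B0 B1 B01 B0' B1' B01' : Type u} [CommRing B0] [CommRing B1] [CommRing B01]
  [CommRing B0'] [CommRing B1'] [CommRing B01']
  [Algebra W B0] [Algebra W B1] [Algebra W B01] [Algebra W B0'] [Algebra W B1'] [Algebra W B01']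
  [Algebra B0 B01] [IsScalarTower W B0 B01] [Algebra B1 B01] [IsScalarTower W B1 B01]
  [Algebra B0' B01'] [IsScalarTower W B0' B01'] [Algebra B1' B01'] [IsScalarTower W B1' B01']
  {g g' : ℕ} (c0 : TwoChart W B0 B1 B01)
  {D : CechData W B0 B1 B01 g} {D' : CechData W B0' B1' B01' g'}
  (hρ0 : ∀ x, D.ρ0 x = algebraMap B0 B01 x) (hρ1 : ∀ x, D.ρ1 x = algebraMap B1 B01 x)
  (hρ0' : ∀ x, D'.ρ0 x = algebraMap B0' B01' x) (hρ1' : ∀ x, D'.ρ1 x = algebraMap B1' B01' x)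
  (S : NormSys D D')
  {O : Type u} [CommRing O] [IsDomain O] [IsDiscreteValuationRing O] [Algebra W O]
  {L E : Type u} [Field L] [Field E] [Algebra W L] [Algebra W E] [Algebra L E]
  [IsScalarTower W L E] [Algebra O E] [IsScalarTower W O E]
  {F F' Fe Fe' : Type u} [Field F] [Field F'] [Field Fe] [Field Fe']
  [Algebra (L ⊗[W] B0) F] [Algebra (L ⊗[W] B1) F] [Algebra (L ⊗[W] B01) F]
  [IsScalarTower (L ⊗[W] B0) (L ⊗[W] B01) F] [IsScalarTower (L ⊗[W] B1) (L ⊗[W] B01) F]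
  [Algebra (L ⊗[W] B0') F'] [Algebra (L ⊗[W] B1') F'] [Algebra (L ⊗[W] B01') F']
  [IsScalarTower (L ⊗[W] B0') (L ⊗[W] B01') F'] [IsScalarTower (L ⊗[W] B1') (L ⊗[W] B01') F']
  [Algebra (E ⊗[W] B0) Fe] [Algebra (E ⊗[W] B1) Fe] [Algebra (E ⊗[W] B01) Fe]
  [IsScalarTower (E ⊗[W] B0) (E ⊗[W] B01) Fe] [IsScalarTower (E ⊗[W] B1) (E ⊗[W] B01) Fe]
  [Algebra (E ⊗[W] B0') Fe'] [Algebra (E ⊗[W] B1') Fe'] [Algebra (E ⊗[W] B01') Fe']
  [IsScalarTower (E ⊗[W] B0') (E ⊗[W] B01') Fe'] [IsScalarTower (E ⊗[W] B1') (E ⊗[W] B01') Fe']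

local notation "𝔪O" => IsLocalRing.maximalIdeal O

/-- The `E`-level package: everything `genericHyp_of_normTriv` needs besides the lines and the
`L`-level norm-triviality. -/
structure LevelData (S : NormSys D D') (O L E F F' Fe Fe' : Type u) [CommRing O] [Algebra W O]
    [Field L] [Field E] [Algebra W L] [Algebra W E] [Algebra L E] [IsScalarTower W L E]
    [Algebra O E] [IsScalarTower W O E] [Field F] [Field F'] [Field Fe] [Field Fe']
    [Algebra (L ⊗[W] B01) F] [Algebra (L ⊗[W] B01') F']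
    [Algebra (E ⊗[W] B01) Fe] [Algebra (E ⊗[W] B01') Fe'] where
  /-- `E` is the field of fractions of `O` -/
  hfracOE : ∀ e : E, ∃ c : O, c ≠ 0 ∧ ∃ o : O, algebraMap O E o = algebraMap O E c * e
  /-- the norm of the function fields over `L` -/
  Nm : F →* F'
  /-- the norm of the function fields over `E` -/
  Nme : Fe →* Fe'
  hNm : ∀ u : L ⊗[W] B01, Nm (algebraMap _ F u) = algebraMap _ F' (S.N01 L u)
  hNme : ∀ u : E ⊗[W] B01, Nme (algebraMap _ Fe u) = algebraMap _ Fe' (S.N01 E u)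
  φ : F →+* Fe
  φ' : F' →+* Fe'
  hφ : ∀ u : L ⊗[W] B01, φ (algebraMap _ F u)
    = algebraMap _ Fe (algebraMap (L ⊗[W] B01) (E ⊗[W] B01) u)
  hφ' : ∀ u : L ⊗[W] B01', φ' (algebraMap _ F' u)
    = algebraMap _ Fe' (algebraMap (L ⊗[W] B01') (E ⊗[W] B01') u)
  /-- `F` is the field of fractions of `L ⊗ B01` -/
  hfrac : ∀ g : F, ∃ d u : L ⊗[W] B01, algebraMap _ F d ≠ 0 ∧
    algebraMap _ F d * g = algebraMap _ F u
  hinjOE : Function.Injective (algebraMap (O ⊗[W] B01) (E ⊗[W] B01))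
  hinjE : Function.Injective (algebraMap (E ⊗[W] B01) Fe)
  hι' : Function.Injective (iotaO' O E Fe' (W := W) (B01' := B01'))

variable {MO : QC2 O (O ⊗[W] B0) (O ⊗[W] B1) (O ⊗[W] B01)}
  {ML : QC2 L (L ⊗[W] B0) (L ⊗[W] B1) (L ⊗[W] B01)}
  {ME : QC2 E (E ⊗[W] B0) (E ⊗[W] B1) (E ⊗[W] B01)}

include hρ0 hρ1 hρ0' hρ1' in
/-- **CMP, module form.** -/
theorem cmp_of_normTriv [Infinite L] {ϖ : O} (hϖ : Irreducible ϖ) (hT : Cmp15.TargetHyp D' O ϖ)
    (Λ : LevelData S O L E F F' Fe Fe')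
    (hMO : MO.IsLine) (hO : LiftData MO ME) (hL : LiftData ML ME)
    (hNT : NormTriv Λ.Nm (L ⊗[W] B0') (L ⊗[W] B1') ML)
    (hy : LinePic.mk (c0.baseChange O) MO hMO ∈ J1 c0 O) (n : ℕ) :
    S.βn 𝔪O n (uJ c0 D hρ0 hρ1 O n ⟨LinePic.mk (c0.baseChange O) MO hMO, hy⟩) = 1 := by
  obtain ⟨θ, h, hG⟩ := genericHyp_of_normTriv hρ0' hρ1' S Λ.hfracOE Λ.Nm Λ.Nme Λ.hNm Λ.hNme
    Λ.φ Λ.φ' Λ.hφ Λ.hφ' Λ.hfrac Λ.hinjOE Λ.hinjE Λ.hι' hMO hO hL hNT
  exact Cmp15.cmp_core c0 hρ0 hρ1 hϖ hT hMO hy hG n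

include hρ0 hρ1 hρ0' hρ1' in
/-- **CMP, class form.**  `y ∈ J̃1(O)` and `xL ∈ Pic X_L` with the same image in `Pic X_E`; if every
line representing `xL` is norm-trivial then `y` is in the formal kernel of the norm. -/
theorem cmp_of_map_eq [Infinite L] {ϖ : O} (hϖ : Irreducible ϖ) (hT : Cmp15.TargetHyp D' O ϖ)
    (Λ : LevelData S O L E F F' Fe Fe')
    (y : J1 c0 O) (xL : PicX c0 L)
    (hxy : PicX.map c0 O E (y : PicX c0 O) = PicX.map c0 L E xL)
    (hNT : ∀ (ML : QC2 L (L ⊗[W] B0) (L ⊗[W] B1) (L ⊗[W] B01)) (hML : ML.IsLine),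
      xL = LinePic.mk (c0.baseChange L) ML hML →
        NormTriv Λ.Nm (L ⊗[W] B0') (L ⊗[W] B1') ML) (n : ℕ) :
    S.βn 𝔪O n (uJ c0 D hρ0 hρ1 O n y) = 1 := by
  obtain ⟨y, hy⟩ := y
  obtain ⟨MO, hMO, rfl⟩ := LinePic.exists_rep y
  obtain ⟨ML, hML, rfl⟩ := LinePic.exists_rep xL
  have hME : (MO.baseChange E).IsLine := baseChange_isLine E MO hMO
  have h1 : PicX.map c0 L E (LinePic.mk (c0.baseChange L) ML hML)
      = LinePic.mk (c0.baseChange E) (MO.baseChange E) hME := by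
    rw [← hxy]
    exact PicX.map_mk_baseChange c0 O E MO hMO
  obtain ⟨hL⟩ := PicX.exists_liftData_of_map_eq c0 L E hML hME h1
  exact cmp_of_normTriv c0 hρ0 hρ1 hρ0' hρ1' S hϖ hT Λ hMO (baseChange_liftData E MO) hL
    (hNT ML hML rfl) hy n

end Fermat.Agent.T1B.Cmp67
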