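/-
T1B (S44), sub-cell TORIC50, brick CMP, part (3) DICT GLUE (helper67), file 16:
**THE FUNCTION FIELD IS THE FIELD OF FRACTIONS OF THE CHART RINGS.**

For chart isomorphisms `E : ChartIso c t` into a field `F` algebraic over `K[t]` (e.g. `t` a
coordinate, `X0.FF.IsGen K t`): every `g ∈ F` is a quotient of elements of `R0` (hence of `R01`), and
`F` is the field of fractions of `R01` (`= L ⊗ B01` in the application).  These are the hypotheses
`hfrac` of `Cmp67.LevelData` / `IsFractionRing (L ⊗ B01) F` of the norm comparison.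
-/
import Mathlib
import Fermat.Agent.T1.Adapt96.ToLinePair
import Fermat.Agent.X0.FFConst

set_option autoImplicit false
set_option linter.unusedSectionVars false
set_option linter.style.haveILetI false

noncomputable section

namespace Fermat.Agent.T1B.Cmp67

open Fermat.Agent.Jac Fermat.Agent.T1.Dict59 Fermat.Agent.T1.Adapt96

universe u v

variable {K R0 R1 R01 : Type u} [Field K] [CommRing R0] [CommRing R1] [CommRing R01]
  [Algebra K R0] [Algebra K R1] [Algebra K R01] [Algebra R0 R01] [Algebra R1 R01]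
  [IsScalarTower K R0 R01] [IsScalarTower K R1 R01]
  {F : Type v} [Field F] [Algebra K F] {c : TwoChart K R0 R1 R01} {t : F}

/-- every function is a quotient of two elements of the chart ring `R0`. -/
theorem exists_frac0 (E : ChartIso c t) (halg : Algebra.IsAlgebraic (Algebra.adjoin K {t}) F)
    (g : F) : ∃ d u : R0, E.ι0 d ≠ 0 ∧ E.ι0 d * g = E.ι0 u := by
  obtain ⟨y, hy0, hy⟩ := (halg.isAlgebraic g).exists_integral_multiple
  have hyC : ((y : Algebra.adjoin K {t}) : F) ∈ C0 (K := K) t := by
    rw [mem_C0_iff]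
    exact isIntegral_algebraMap (x := y)
  have hygC : ((y : Algebra.adjoin K {t}) : F) * g ∈ C0 (K := K) t := by
    rw [mem_C0_iff]
    have : y • g = ((y : Algebra.adjoin K {t}) : F) * g := rfl
    rw [← this]
    exact hy
  refine ⟨E.e0.symm ⟨_, hyC⟩, E.e0.symm ⟨_, hygC⟩, ?_, ?_⟩
  · rw [ChartIso.ι0_apply, RingEquiv.apply_symm_apply]
    intro h0
    exact hy0 (Subtype.ext h0)
  · rw [ChartIso.ι0_apply, ChartIso.ι0_apply, RingEquiv.apply_symm_apply,
      RingEquiv.apply_symm_apply]

/-- every function is a quotient of two elements of the overlap ring `R01`. -/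
theorem exists_frac01 (E : ChartIso c t) (halg : Algebra.IsAlgebraic (Algebra.adjoin K {t}) F)
    (g : F) : ∃ d u : R01, E.e01 d ≠ 0 ∧ E.e01 d * g = E.e01 u := by
  obtain ⟨d, u, hd, hu⟩ := exists_frac0 E halg g
  refine ⟨algebraMap R0 R01 d, algebraMap R0 R01 u, ?_, ?_⟩
  · rwa [E.e01_algebraMap0]
  · rw [E.e01_algebraMap0, E.e01_algebraMap0, hu]

/-- `F` is the field of fractions of `R01`. -/
theorem isFractionRing01 (E : ChartIso c t)
    (halg : Algebra.IsAlgebraic (Algebra.adjoin K {t}) F) :
    letI := E.alg01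
    IsFractionRing R01 F := by
  letI := E.alg01
  haveI : FaithfulSMul R01 F := (faithfulSMul_iff_algebraMap_injective R01 F).2 E.e01_inj
  refine IsFractionRing.of_field _ _ (fun z => ?_)
  obtain ⟨d, u, hd, hu⟩ := exists_frac01 E halg z
  refine ⟨u, d, ?_⟩
  change z = E.e01 u / E.e01 d
  rw [← hu]
  field_simp

/-- `F` is the field of fractions of `R0`. -/
theorem isFractionRing0 (E : ChartIso c t)
    (halg : Algebra.IsAlgebraic (Algebra.adjoin K {t}) F) :
    letI := E.alg0
    IsFractionRing R0 F := by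
  letI := E.alg0
  haveI : FaithfulSMul R0 F := (faithfulSMul_iff_algebraMap_injective R0 F).2 E.ι0_injective
  refine IsFractionRing.of_field _ _ (fun z => ?_)
  obtain ⟨d, u, hd, hu⟩ := exists_frac0 E halg z
  refine ⟨u, d, ?_⟩
  change z = E.ι0 u / E.ι0 d
  rw [← hu]
  field_simp

/-- the coordinate form. -/
theorem isFractionRing01_of_isGen (E : ChartIso c t) (ht : Fermat.Agent.X0.FF.IsGen K t) :
    letI := E.alg01
    IsFractionRing R01 F :=
  isFractionRing01 E ht.isAlgebraic_adjoin

end Fermat.Agent.T1B.Cmp67
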