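/-
T1B (S44), sub-cell TORIC50, brick CMP, part (3) DICT GLUE (helper67), file 15:
**THE BRIDGE (X-BR)**: from the elementwise norm statement on the LINE PAIR of a framed line
(the output shape of `Cmp38/XLP.xlp_degenOne/Two`, in `Dict59` vocabulary) to `NormTriv` on the hub.

Setting: a field `K` (`= L`, a number field), source two-chart ring `c` over `K` with chart
isomorphisms `E : ChartIso c t` into a field `F` (`= L·F_N`), target two-chart ring `c'` with
`E' : ChartIso c' t'` into `F'` (`= L·F_{M'}`), `Nm : F →* F'` multiplicative.  For a line `N` on `c`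
with a framing `φ`, `Λ := framePair E hN φ`:

  `h ≠ 0`,  `Nm(Λ.I_j) h ⊆ C_j(t')`,  `Nm(Λ.I_j⁻¹) h⁻¹ ⊆ C_j(t')`  (`j = 0, 1`)   ⟹   `NormTriv Nm T0 T1 N`

(`F` an `R_j`-algebra through `E`, `F'` a `T_j`-algebra through `E'`).
-/
import Mathlib
import Fermat.Agent.T1B.Cmp67.NormTriv
import Fermat.Agent.T1B.Hol31.DictExt
import Fermat.Agent.T1B.AD74.FrameInv

set_option autoImplicit false
set_option linter.unusedSectionVars false
set_option linter.style.haveILetI false

open TensorProduct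

noncomputable section

namespace Fermat.Agent.T1B.Cmp67

open Fermat.Agent.Jac Fermat.Agent.T1B.Hol31.Frame Fermat.Agent.T1B.Hol31.DictExt
open Fermat.Agent.T1.Dict59 Fermat.Agent.T1.Adapt96

universe u

variable {K R0 R1 R01 : Type u} [Field K] [CommRing R0] [CommRing R1] [CommRing R01]
  [Algebra K R0] [Algebra K R1] [Algebra K R01] [Algebra R0 R01] [Algebra R1 R01]
  [IsScalarTower K R0 R01] [IsScalarTower K R1 R01]
  {F : Type u} [Field F] [Algebra K F] {c : TwoChart K R0 R1 R01} {t : F}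
  {T0 T1 T01 : Type u} [CommRing T0] [CommRing T1] [CommRing T01]
  [Algebra K T0] [Algebra K T1] [Algebra K T01] [Algebra T0 T01] [Algebra T1 T01]
  [IsScalarTower K T0 T01] [IsScalarTower K T1 T01]
  {F' : Type u} [Field F'] [Algebra K F'] {c' : TwoChart K T0 T1 T01} {t' : F'}

/-- the elementwise norm statement on a line pair (output shape of `Cmp38/XLP`). -/
def PairNormTriv (Nm : F →* F') (t' : F') (Λ : LinePair K t) (h : F') : Prop :=
  ∀ f : F,
    (f ∈ Λ.I0 → Nm f * h ∈ C0 (K := K) t') ∧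
    (f ∈ Λ.I1 → Nm f * h ∈ C1 (K := K) t') ∧
    ((∀ a ∈ Λ.I0, f * a ∈ C0 (K := K) t) → Nm f * h⁻¹ ∈ C0 (K := K) t') ∧
    ((∀ a ∈ Λ.I1, f * a ∈ C1 (K := K) t) → Nm f * h⁻¹ ∈ C1 (K := K) t')

/-- an element of `C0 t'` is in the image of the chart ring `T0`. -/
theorem exists_algebraMap_eq_of_mem_C0 (E' : ChartIso c' t') {z : F'} (hz : z ∈ C0 (K := K) t') :
    ∃ r : T0, E'.ι0 r = z :=
  ⟨E'.e0.symm ⟨z, hz⟩, by rw [ChartIso.ι0_apply, RingEquiv.apply_symm_apply]⟩

theorem exists_algebraMap_eq_of_mem_C1 (E' : ChartIso c' t') {z : F'} (hz : z ∈ C1 (K := K) t') :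
    ∃ r : T1, E'.ι1 r = z :=
  ⟨E'.e1.symm ⟨z, hz⟩, by rw [ChartIso.ι1_apply, RingEquiv.apply_symm_apply]⟩

/-- **The bridge.** -/
theorem normTriv_of_framePair (E : ChartIso c t) (E' : ChartIso c' t') (Nm : F →* F')
    {N : QC2 K R0 R1 R01} (hN : N.IsLine) (φ : Framing E N) (h : F') (h0 : h ≠ 0)
    (H : PairNormTriv Nm t' (framePair E hN φ) h) :
    letI := E.alg0
    letI := E.alg1
    letI := E.alg01
    haveI := E.tower0
    haveI := E.tower1
    letI := E'.alg0
    letI := E'.alg1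
    NormTriv Nm T0 T1 N := by
  letI := E.alg0
  letI := E.alg1
  letI := E.alg01
  haveI := E.tower0
  haveI := E.tower1
  letI := E'.alg0
  letI := E'.alg1
  have hε : φ.toLin ≠ 0 := φ.toLin_ne_zero
  obtain ⟨⟨J0, hJ0⟩, ⟨J1, hJ1⟩⟩ := Fermat.Agent.T1B.AD74.FrameInv.exists_frame_mul_eq_one
    (F := F) c hN E.ι0_injective φ.toLin hε
  refine ⟨φ.toLin, h, hε, h0, ⟨J0, ?_, ?_, ?_⟩, ⟨J1, ?_, ?_, ?_⟩⟩
  · rw [hJ0]; exact Submodule.one_le.1 le_rfl
  · intro f hf
    have hf' : f ∈ (framePair E hN φ).I0 := (mem_frame0_iff E).1 hf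
    obtain ⟨r, hr⟩ := exists_algebraMap_eq_of_mem_C0 E' ((H f).1 hf')
    exact ⟨r, hr⟩
  · intro f hf
    have hfa : ∀ a ∈ (framePair E hN φ).I0, f * a ∈ C0 (K := K) t := by
      intro a ha
      have ha' : a ∈ frame0 N φ.toLin := (mem_frame0_iff E).2 ha
      have h1 : a * f ∈ frame0 N φ.toLin * J0 := Submodule.mul_mem_mul ha' hf
      rw [hJ0] at h1
      obtain ⟨r, hr⟩ := Submodule.mem_one.1 h1
      rw [mul_comm, ← hr]
      exact (E.e0 r).2
    obtain ⟨r, hr⟩ := exists_algebraMap_eq_of_mem_C0 E' ((H f).2.2.1 hfa)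
    exact ⟨r, hr⟩
  · rw [hJ1]; exact Submodule.one_le.1 le_rfl
  · intro f hf
    have hf' : f ∈ (framePair E hN φ).I1 := (mem_frame1_iff E).1 hf
    obtain ⟨r, hr⟩ := exists_algebraMap_eq_of_mem_C1 E' ((H f).2.1 hf')
    exact ⟨r, hr⟩
  · intro f hf
    have hfa : ∀ a ∈ (framePair E hN φ).I1, f * a ∈ C1 (K := K) t := by
      intro a ha
      have ha' : a ∈ frame1 N φ.toLin := (mem_frame1_iff E).2 ha
      have h1 : a * f ∈ frame1 N φ.toLin * J1 := Submodule.mul_mem_mul ha' hf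
      rw [hJ1] at h1
      obtain ⟨r, hr⟩ := Submodule.mem_one.1 h1
      rw [mul_comm, ← hr]
      exact (E.e1 r).2
    obtain ⟨r, hr⟩ := exists_algebraMap_eq_of_mem_C1 E' ((H f).2.2.2 hfa)
    exact ⟨r, hr⟩

/-- every line has a framing relative to chart isomorphisms. -/
theorem exists_framing (E : ChartIso c t) {N : QC2 K R0 R1 R01} (hN : N.IsLine) :
    Nonempty (Framing E N) := by
  letI := E.alg0
  letI := E.alg1
  letI := E.alg01
  haveI := E.tower0
  haveI := E.tower1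
  obtain ⟨ε, hε⟩ := exists_framing_ne_zero (F := F) hN E.ι0_injective
  exact ⟨Framing.ofLin E N ε hε⟩

/-- **The bridge, existential form**: if for EVERY framing the line pair is norm-trivial for some
`h ≠ 0` (what the dictionary + `Cmp38/XLP` give), the line is norm-trivial on the hub. -/
theorem normTriv_of_forall_framing (E : ChartIso c t) (E' : ChartIso c' t') (Nm : F →* F')
    {N : QC2 K R0 R1 R01} (hN : N.IsLine)
    (H : ∀ φ : Framing E N, ∃ h : F', h ≠ 0 ∧ PairNormTriv Nm t' (framePair E hN φ) h) :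
    letI := E.alg0
    letI := E.alg1
    letI := E.alg01
    haveI := E.tower0
    haveI := E.tower1
    letI := E'.alg0
    letI := E'.alg1
    NormTriv Nm T0 T1 N := by
  obtain ⟨φ⟩ := exists_framing E hN
  obtain ⟨h, h0, hP⟩ := H φ
  exact normTriv_of_framePair E E' Nm hN φ h h0 hP

end Fermat.Agent.T1B.Cmp67
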