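/-
T1B (S44), sub-cell TORIC50, brick CMP, part (3) DICT GLUE (helper67), file 17:
**CMP, DICTIONARY FORM** = `cmp_of_map_eq` ∘ `normTriv_of_forall_framing`.

The `L`-level norm-triviality `hNT` of `cmp_of_map_eq` is replaced by its two sources:
* `hJ` (JSpec-F): every framed representative of `xL` has a line pair in a class `Good` of line pairs
  (in the application `Good P := deg P = 0 ∧ cls P = x` for a point `x` with `π x = 0`);
* `hX` (X-LP, `Cmp38/XLP`): every `Good` line pair is norm-trivial elementwise (`PairNormTriv`).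
The function fields `F`, `F'` over `L` are algebras over the hub rings `L ⊗ B_j`, `L ⊗ B_j'` through the
chart isomorphisms `EL`, `EL'`.
-/
import Mathlib
import Fermat.Agent.T1B.Cmp67.Assemble
import Fermat.Agent.T1B.Cmp67.Bridge

set_option autoImplicit false
set_option linter.unusedSectionVars false
set_option linter.style.haveILetI false
set_option maxHeartbeats 1000000

open TensorProduct

noncomputable section

namespace Fermat.Agent.T1B.Cmp67

open Fermat.Agent.Jac Fermat.Agent.Jac.JSmooth85Alg Fermat.Agent.Jac.JGroup85Pic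
open Fermat.Agent.Jac.BaseChange75
open Fermat.Agent.T1.RedIface75 Fermat.Agent.T1.Red11 Fermat.Agent.T1.CechFormal70
open Fermat.Agent.T1B.Toric11 Fermat.Agent.T1B.Hol31.Frame Fermat.Agent.T1B.Hol31.DictExt
open Fermat.Agent.T1.Dict59 Fermat.Agent.T1.Adapt96
open scoped Fermat.Agent.Jac.BaseChange75

universe u

variable {W : Type u} [CommRing W]
  {B0 B1 B01 B0' B1' B01' : Type u} [CommRing B0] [CommRing B1] [CommRing B01]
  [CommRing B0'] [CommRing B1'] [CommRing B01']
  [Algebra W B0] [Algebra W B1] [Algebra W B01] [Algebra W B0'] [Algebra W B1'] [Algebra W B01']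
  [Algebra B0 B01] [IsScalarTower W B0 B01] [Algebra B1 B01] [IsScalarTower W B1 B01]
  [Algebra B0' B01'] [IsScalarTower W B0' B01'] [Algebra B1' B01'] [IsScalarTower W B1' B01']
  {g g' : ℕ} (c0 : TwoChart W B0 B1 B01) (c0' : TwoChart W B0' B1' B01')
  {D : CechData W B0 B1 B01 g} {D' : CechData W B0' B1' B01' g'}
  (hρ0 : ∀ x, D.ρ0 x = algebraMap B0 B01 x) (hρ1 : ∀ x, D.ρ1 x = algebraMap B1 B01 x)
  (hρ0' : ∀ x, D'.ρ0 x = algebraMap B0' B01' x) (hρ1' : ∀ x, D'.ρ1 x = algebraMap B1' B01' x)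
  (S : NormSys D D')
  {O : Type u} [CommRing O] [IsDomain O] [IsDiscreteValuationRing O] [Algebra W O]
  {L E : Type u} [Field L] [Field E] [Algebra W L] [Algebra W E] [Algebra L E]
  [IsScalarTower W L E] [Algebra O E] [IsScalarTower W O E]
  {F F' Fe Fe' : Type u} [Field F] [Field F'] [Field Fe] [Field Fe']
  [Algebra L F] [Algebra L F'] {t : F} {t' : F'}
  [Algebra (E ⊗[W] B0) Fe] [Algebra (E ⊗[W] B1) Fe] [Algebra (E ⊗[W] B01) Fe]
  [IsScalarTower (E ⊗[W] B0) (E ⊗[W] B01) Fe] [IsScalarTower (E ⊗[W] B1) (E ⊗[W] B01) Fe]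
  [Algebra (E ⊗[W] B0') Fe'] [Algebra (E ⊗[W] B1') Fe'] [Algebra (E ⊗[W] B01') Fe']
  [IsScalarTower (E ⊗[W] B0') (E ⊗[W] B01') Fe'] [IsScalarTower (E ⊗[W] B1') (E ⊗[W] B01') Fe']

local notation "𝔪O" => IsLocalRing.maximalIdeal O

include hρ0 hρ1 hρ0' hρ1' in
/-- **CMP, dictionary form.** -/
theorem cmp_of_dict [Infinite L] {ϖ : O} (hϖ : Irreducible ϖ) (hT : Cmp15.TargetHyp D' O ϖ)
    (EL : ChartIso (c0.baseChange L) t) (EL' : ChartIso (c0'.baseChange L) t')
    (Λ : letI := EL.alg01; letI := EL'.alg01; LevelData S O L E F F' Fe Fe')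
    (y : J1 c0 O) (xL : PicX c0 L)
    (hxy : PicX.map c0 O E (y : PicX c0 O) = PicX.map c0 L E xL)
    (Good : LinePair L t → Prop)
    (hJ : ∀ (ML : QC2 L (L ⊗[W] B0) (L ⊗[W] B1) (L ⊗[W] B01)) (hML : ML.IsLine)
      (φ : Framing EL ML), xL = LinePic.mk (c0.baseChange L) ML hML →
        Good (framePair EL hML φ))
    (hX : ∀ P : LinePair L t, Good P →
      ∃ h : F', h ≠ 0 ∧
        PairNormTriv (letI := EL.alg01; letI := EL'.alg01; Λ.Nm) t' P h) (n : ℕ) :
    S.βn 𝔪O n (uJ c0 D hρ0 hρ1 O n y) = 1 := by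
  letI := EL.alg0
  letI := EL.alg1
  letI := EL.alg01
  haveI := EL.tower0
  haveI := EL.tower1
  letI := EL'.alg0
  letI := EL'.alg1
  letI := EL'.alg01
  haveI := EL'.tower0
  haveI := EL'.tower1
  refine cmp_of_map_eq c0 hρ0 hρ1 hρ0' hρ1' S hϖ hT Λ y xL hxy (fun ML hML hx => ?_) n
  exact normTriv_of_forall_framing EL EL' Λ.Nm hML (fun φ => hX _ (hJ ML hML φ hx))

end Fermat.Agent.T1B.Cmp67
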