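/-
T1B (S44), sub-cell TORIC50, brick CMP, part (3) DICT GLUE (helper67), file 11:
GALOIS DESCENT OF THE FUNCTION `g` WITH `ψ_* (divL P) = div g`.

* `exists_descent_of_ord_invariant` : a nonzero function `g` of `ℚ̄·F_M` whose orders are invariant
  under `Gal(ℚ̄/L)` is, up to a constant of `ℚ̄`, a function of `L·F_M`;
* `smul_divL_eq` : the divisor of a line pair over `L` is fixed by `Gal(ℚ̄/L)`;
* `exists_descent_of_pushforward` : for a `ℚ̄`-morphism `ψ : ℚ̄·F_{M'} → ℚ̄·F_N` commuting with the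
  coefficientwise Galois actions (e.g. `heckeAlphaBar`, `heckeBetaBar`), a line pair `P` over `L` at
  level `N` and `g ≠ 0` with `ψ_* (divL P) = div g`:  `g = c · cL h` with `h ∈ L·F_{M'}`.
-/
import Mathlib
import Fermat.Agent.T1.Dict67.FunDescent
import Fermat.Agent.ES.HECKE.HeckeGalois12

set_option autoImplicit false
set_option linter.unusedSectionVars false
set_option linter.unusedVariables false
set_option synthInstance.maxHeartbeats 400000
set_option maxHeartbeats 1000000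

noncomputable section

open HahnSeries AlgebraicCurve ModularCurve IntermediateField
open Fermat.Agent.RED.Interface4 Fermat.Agent.T1.Dict59 Fermat.Agent.T1.Dict67

namespace Fermat.Agent.T1B.Cmp67

variable (M : ℕ)

/-- **Descent from invariance of the orders.** -/
theorem exists_descent_of_ord_invariant [NeZero M] (L : IntermediateField ℚ Qbar) (g : Fbar M)
    (hg : g ≠ 0)
    (hord : ∀ σ : GQ, (∀ a ∈ L, σ a = a) → ∀ w : Place Qbar (Fbar M),
      (gal M σ • w).ord g = w.ord g) :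
    ∃ (c : Qbar) (f : FK M L), c ≠ 0 ∧ f ≠ 0 ∧ g = algebraMap Qbar (Fbar M) c * cL M L f := by
  have HL : Fermat.Agent.RR.LSpace.LHyp Qbar (Fbar M) :=
    Fermat.Agent.RR.LHypGen.lHyp_of_isGen (Fermat.Agent.RED.TOP.FbarFacts20.isGen_j M)
  -- `σ g = c_σ g`
  have hconst : ∀ σ : GQ, (∀ a ∈ L, σ a = a) →
      ∃ c : Qbar, gal M σ • g = algebraMap Qbar (Fbar M) c * g := by
    intro σ hσ
    have hσg : gal M σ • g ≠ 0 := by
      intro h0
      apply hg
      have := congrArg (fun z => (gal M σ)⁻¹ • z) h0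
      simpa using this
    have hu : ∀ w' : Place Qbar (Fbar M), 0 ≤ w'.ord ((gal M σ • g) * g⁻¹) := by
      intro w'
      obtain ⟨w, rfl⟩ : ∃ w, gal M σ • w = w' := ⟨(gal M σ)⁻¹ • w', smul_inv_smul _ _⟩
      rw [Place.ord_mul _ hσg (inv_ne_zero hg), Place.ord_inv, SemilinearAut.ord_smul,
        hord σ hσ w]
      omega
    obtain ⟨c, hc⟩ := Fermat.Agent.RR.LSpace.eq_algebraMap_of_forall_ord_nonneg HL hu
    refine ⟨c, ?_⟩
    rw [← hc, mul_assoc, inv_mul_cancel₀ hg, mul_one]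
  -- coefficientwise form
  have hcoef : ∀ σ : GQ, (∀ a ∈ L, σ a = a) → ∃ c : Qbar, ∀ j : ℤ,
      σ ((g : LaurentSeries Qbar).coeff j) = c * (g : LaurentSeries Qbar).coeff j := by
    intro σ hσ
    obtain ⟨c, hc⟩ := hconst σ hσ
    refine ⟨c, fun j => ?_⟩
    have h1 := congrArg (fun z : Fbar M => (z : LaurentSeries Qbar).coeff j) hc
    have h2 : ((algebraMap Qbar (Fbar M) c * g : Fbar M) : LaurentSeries Qbar)
        = HahnSeries.single 0 c * (g : LaurentSeries Qbar) := by
      show algebraMap Qbar (LaurentSeries Qbar) c * (g : LaurentSeries Qbar) = _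
      rw [algebraMap_laurentSeries_eq_single]
    simp only [coe_arithmeticGalois_smul, coeffMap_coeff] at h1
    refine h1.trans ?_
    rw [h2, HahnSeries.coeff_single_zero_mul]
  -- the leading coefficient
  have hgs0 : (g : LaurentSeries Qbar) ≠ 0 := fun h0 => hg (Subtype.ext h0)
  obtain ⟨a, ha⟩ : ∃ a : Qbar, a = (g : LaurentSeries Qbar).coeff (g : LaurentSeries Qbar).order :=
    ⟨_, rfl⟩
  have ha0 : a ≠ 0 := by
    rw [ha]
    exact fun h0 => hgs0 (HahnSeries.coeff_order_eq_zero.1 h0)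
  -- the coefficients of `a⁻¹ g` lie in `L`
  have hfix : ∀ k : ℤ, a⁻¹ * (g : LaurentSeries Qbar).coeff k ∈ L := by
    intro k
    refine mem_of_fixed67 L _ (fun σ hσ => ?_)
    obtain ⟨c, hc⟩ := hcoef σ hσ
    have hca : σ a = c * a := by rw [ha]; exact hc _
    have hc0 : c ≠ 0 := by
      rintro rfl
      rw [zero_mul] at hca
      exact ha0 ((map_eq_zero σ).1 hca)
    rw [map_mul, map_inv₀, hca, hc k]
    field_simp
  -- descend `a⁻¹ g`
  obtain ⟨f, hf⟩ := coeffFixBar M L (algebraMap Qbar (Fbar M) a⁻¹ * g) (fun k => by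
    have h2 : ((algebraMap Qbar (Fbar M) a⁻¹ * g : Fbar M) : LaurentSeries Qbar)
        = HahnSeries.single 0 a⁻¹ * (g : LaurentSeries Qbar) := by
      show algebraMap Qbar (LaurentSeries Qbar) a⁻¹ * (g : LaurentSeries Qbar) = _
      rw [algebraMap_laurentSeries_eq_single]
    rw [h2, HahnSeries.coeff_single_zero_mul]
    exact hfix k)
  refine ⟨a, f, ha0, ?_, ?_⟩
  · rintro rfl
    rw [map_zero] at hf
    have h3 : algebraMap Qbar (Fbar M) a⁻¹ ≠ 0 :=
      (map_ne_zero (algebraMap Qbar (Fbar M))).2 (inv_ne_zero ha0)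
    exact (mul_ne_zero h3 hg) hf.symm
  · rw [hf, ← mul_assoc, ← map_mul, mul_inv_cancel₀ ha0, map_one, one_mul]

/-- The divisor of a line pair over `L` is fixed by `Gal(ℚ̄/L)`. -/
theorem smul_divL_eq (L : IntermediateField ℚ Qbar) (t : FK M L) (σ : GQ)
    (hσ : ∀ a ∈ L, σ a = a) (P : LinePair L t) :
    gal M σ • LinePair.divL P = LinePair.divL P := by
  ext w
  rw [SemilinearAut.divisor_smul_apply]
  have h := divL_fixed M L t σ hσ P ((gal M σ)⁻¹ • w)
  rw [smul_inv_smul] at h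
  exact h.symm

/-- **Descent of the function with `ψ_* (divL P) = div g`.** -/
theorem exists_descent_of_pushforward (M' N : ℕ) [NeZero M'] [NeZero N]
    (ψ : Fbar M' →ₐ[Qbar] Fbar N) (hψ : ψ.toRingHom.IsIntegral)
    (hcomm : ∀ (σ : GQ) (f : Fbar M'), ψ (gal M' σ • f) = gal N σ • ψ f)
    (hdeg : ∀ w : Place Qbar (Fbar N), w.inertiaDegAlong ψ hψ = 1)
    (L : IntermediateField ℚ Qbar) (t : FK N L) (P : LinePair L t) (g : Fbar M') (hg : g ≠ 0)
    (hD : ∀ v : Place Qbar (Fbar M'),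
      Divisor.pushforwardAlong ψ hψ (LinePair.divL P) v = v.ord g) :
    ∃ (c : Qbar) (h : FK M' L), c ≠ 0 ∧ h ≠ 0 ∧ g = algebraMap Qbar (Fbar M') c * cL M' L h := by
  apply exists_descent_of_ord_invariant M' L g hg
  intro σ hσ w
  rw [← hD, ← hD]
  have h1 := Fermat.Agent.ES.HECKE.HeckeGalois12.pushforwardAlong_smul ψ hψ (gal M' σ) (gal N σ)
    (hcomm σ) hdeg (LinePair.divL P)
  rw [smul_divL_eq N L t σ hσ P] at h1
  have h2 := SemilinearAut.divisor_smul_apply_smul (gal M' σ)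
    (Divisor.pushforwardAlong ψ hψ (LinePair.divL P)) w
  rw [← h1] at h2
  exact h2

end Fermat.Agent.T1B.Cmp67
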