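/-
T1B (S44), sub-cell TORIC50, brick CMP, part (3) DICT GLUE (helper67), file 14:
the descent `exists_descent_of_pushforward` for the two degeneracy maps `heckeAlphaBar`,
`heckeBetaBar` over `ℚ̄`, in the exact shape consumed by `Cmp38/XLP` (hypothesis `hdesc`).
-/
import Mathlib
import Fermat.Agent.T1B.Cmp67.Descent
import Fermat.Agent.T1B.DivNorm27.Main
import Fermat.Agent.ES.HECKE.FundId12

set_option autoImplicit false
set_option linter.unusedSectionVars false
set_option linter.unusedVariables false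
set_option synthInstance.maxHeartbeats 400000
set_option maxHeartbeats 1000000

noncomputable section

open HahnSeries AlgebraicCurve ModularCurve IntermediateField
open Fermat.Agent.RED.Interface4 Fermat.Agent.T1.Dict59 Fermat.Agent.T1.Dict67

namespace Fermat.Agent.T1B.Cmp67

variable (M' p : ℕ) [NeZero M'] [NeZero p] [NeZero (M' * p)]

/-- the descended function has the same orders. -/
theorem ord_eq_of_eq_const_mul {M : ℕ} {L : IntermediateField ℚ Qbar} {g : Fbar M} {c : Qbar}
    {h : FK M L} (hc : c ≠ 0) (hh : h ≠ 0) (hg : g = algebraMap Qbar (Fbar M) c * cL M L h)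
    (v : Place Qbar (Fbar M)) : v.ord (cL M L h) = v.ord g := by
  have h1 : algebraMap Qbar (Fbar M) c ≠ 0 := by
    rw [Ne, map_eq_zero_iff _ (algebraMap Qbar (Fbar M)).injective]
    exact hc
  have h2 : cL M L h ≠ 0 := by
    rw [Ne, map_eq_zero_iff _ (cL_injective M L)]
    exact hh
  rw [hg, Place.ord_mul v h1 h2, Fermat.Agent.X0.FF.ord_algebraMap, zero_add]

/-- **`hdesc` for `π₁`** (`heckeAlphaBar`). -/
theorem hdesc_alpha (hp : p.Prime) (L : IntermediateField ℚ Qbar) (t : FK (M' * p) L)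
    (P : LinePair L t) (g : Fbar M') (hg : g ≠ 0)
    (hD : ∀ v : Place Qbar (Fbar M'),
      Divisor.pushforwardAlong (heckeAlphaBar Qbar M' p)
        (Fermat.Agent.T1B.DivNorm27.heckeAlphaBarIntegral_all M' p hp) (LinePair.divL P) v
        = v.ord g) :
    ∃ h : FK M' L, h ≠ 0 ∧ ∀ v : Place Qbar (Fbar M'), v.ord (cL M' L h) = v.ord g := by
  have := Fermat.Agent.RED.TOP.FbarFacts20.hasPrincipalDivisors_bar (M' * p)
  obtain ⟨c, h, hc, hh, hgh⟩ := exists_descent_of_pushforward M' (M' * p)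
    (heckeAlphaBar Qbar M' p) (Fermat.Agent.T1B.DivNorm27.heckeAlphaBarIntegral_all M' p hp)
    (fun σ f => Fermat.Agent.ES.HECKE.HeckeGalois12.heckeAlphaBar_smul M' p σ f)
    (fun w => Fermat.Agent.ES.HECKE.FundId12.inertiaDegAlong_eq_one _ _
      (Fermat.Agent.T1B.DivNorm27.finiteAlong_alpha_all M' p hp)
      (Fermat.Agent.RED.TOP.FbarFacts20.isGen_j M') w)
    L t P g hg hD
  exact ⟨h, hh, ord_eq_of_eq_const_mul hc hh hgh⟩

/-- **`hdesc` for `π₂`** (`heckeBetaBar`). -/
theorem hdesc_beta (hp : p.Prime) (L : IntermediateField ℚ Qbar) (t : FK (M' * p) L)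
    (P : LinePair L t) (g : Fbar M') (hg : g ≠ 0)
    (hD : ∀ v : Place Qbar (Fbar M'),
      Divisor.pushforwardAlong (heckeBetaBar Qbar M' p)
        (Fermat.Agent.T1B.DivNorm27.heckeBetaBarIntegral_all M' p hp) (LinePair.divL P) v
        = v.ord g) :
    ∃ h : FK M' L, h ≠ 0 ∧ ∀ v : Place Qbar (Fbar M'), v.ord (cL M' L h) = v.ord g := by
  have := Fermat.Agent.RED.TOP.FbarFacts20.hasPrincipalDivisors_bar (M' * p)
  obtain ⟨c, h, hc, hh, hgh⟩ := exists_descent_of_pushforward M' (M' * p)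
    (heckeBetaBar Qbar M' p) (Fermat.Agent.T1B.DivNorm27.heckeBetaBarIntegral_all M' p hp)
    (fun σ f => Fermat.Agent.ES.HECKE.HeckeGalois12.heckeBetaBar_smul M' p σ f)
    (fun w => Fermat.Agent.ES.HECKE.FundId12.inertiaDegAlong_eq_one _ _
      (Fermat.Agent.T1B.DivNorm27.finiteAlong_beta_all M' p hp)
      (Fermat.Agent.RED.TOP.FbarFacts20.isGen_j M') w)
    L t P g hg hD
  exact ⟨h, hh, ord_eq_of_eq_const_mul hc hh hgh⟩

end Fermat.Agent.T1B.Cmp67
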