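/-
T1B (S44), sub-cell TORIC50, brick CMP, part (3) DICT GLUE (helper67), file 12:
ORDER BOUNDS FROM MEMBERSHIP IN A LINE PAIR (Dict59 vocabulary).

For a line pair `P = (I0, I1)` over `L` with divisor `D = divL P` on the `ℚ̄`-curve and a place `w`:
* `neg_divL_le_ord_of_mem0/1` : `f ∈ I_j`, `w ∈ U_j`  ⇒ `-D(w) ≤ ord_w (cL f)`;
* `divL_le_ord_of_mul_mem0/1` : `f · I_j ⊆ C_j`, `w ∈ U_j` ⇒ `D(w) ≤ ord_w (cL f)`.
-/
import Mathlib
import Fermat.Agent.T1.Dict59.DivCalc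
import Fermat.Agent.X0.FFDict

set_option autoImplicit false
set_option linter.unusedSectionVars false
set_option synthInstance.maxHeartbeats 400000
set_option maxHeartbeats 1000000

noncomputable section

open HahnSeries AlgebraicCurve ModularCurve IntermediateField
open Fermat.Agent.RED.Interface4 Fermat.Agent.T1.Dict59 Fermat.Agent.T1.Dict59.OrdInf

namespace Fermat.Agent.T1B.Cmp67

variable {M : ℕ} [NeZero M] {L : IntermediateField ℚ Qbar} {t : FK M L}

theorem neg_divL_le_ord_of_mem0 (ht : NonConst M t) (P : LinePair L t)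
    (w : Place Qbar (Fbar M)) (hw : cL M L t ∈ w.toValuationSubring) {f : FK M L}
    (hf : f ∈ P.I0) (hf0 : f ≠ 0) : -LinePair.divL P w ≤ w.ord (cL M L f) := by
  rw [divL_apply ht, LinePair.divFun_of_mem P w hw, neg_neg]
  exact ordInf_le (cL M L) w (cL_C0_mem w hw) P.I0 P.fg0 hf hf0

theorem neg_divL_le_ord_of_mem1 (ht : NonConst M t) (P : LinePair L t)
    (w : Place Qbar (Fbar M)) (hw : cL M L t ∉ w.toValuationSubring) {f : FK M L}
    (hf : f ∈ P.I1) (hf0 : f ≠ 0) : -LinePair.divL P w ≤ w.ord (cL M L f) := by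
  rw [divL_apply ht, LinePair.divFun_of_not_mem P w hw, neg_neg]
  exact ordInf_le (cL M L) w (cL_C1_mem w hw) P.I1 P.fg1 hf hf0

theorem divL_le_ord_of_mul_mem0 (ht : NonConst M t) (P : LinePair L t)
    (w : Place Qbar (Fbar M)) (hw : cL M L t ∈ w.toValuationSubring) {f : FK M L} (hf0 : f ≠ 0)
    (hf : ∀ a ∈ P.I0, f * a ∈ C0 (K := L) t) : LinePair.divL P w ≤ w.ord (cL M L f) := by
  rw [divL_apply ht, LinePair.divFun_of_mem P w hw]
  obtain ⟨a, ha, ha0, hord⟩ := exists_ordInf_eq (cL M L) w (cL_C0_mem w hw) P.I0 P.fg0 P.ne0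
  rw [← hord]
  have h1 : cL M L (f * a) ∈ w.toValuationSubring := cL_C0_mem w hw _ (hf a ha)
  have h2 := Fermat.Agent.X0.FF.ord_nonneg_of_mem w h1
  rw [map_mul, w.ord_mul ((map_ne_zero (cL M L)).2 hf0) ((map_ne_zero (cL M L)).2 ha0)] at h2
  omega

theorem divL_le_ord_of_mul_mem1 (ht : NonConst M t) (P : LinePair L t)
    (w : Place Qbar (Fbar M)) (hw : cL M L t ∉ w.toValuationSubring) {f : FK M L} (hf0 : f ≠ 0)
    (hf : ∀ a ∈ P.I1, f * a ∈ C1 (K := L) t) : LinePair.divL P w ≤ w.ord (cL M L f) := by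
  rw [divL_apply ht, LinePair.divFun_of_not_mem P w hw]
  obtain ⟨a, ha, ha0, hord⟩ := exists_ordInf_eq (cL M L) w (cL_C1_mem w hw) P.I1 P.fg1 P.ne1
  rw [← hord]
  have h1 : cL M L (f * a) ∈ w.toValuationSubring := cL_C1_mem w hw _ (hf a ha)
  have h2 := Fermat.Agent.X0.FF.ord_nonneg_of_mem w h1
  rw [map_mul, w.ord_mul ((map_ne_zero (cL M L)).2 hf0) ((map_ne_zero (cL M L)).2 ha0)] at h2
  omega

end Fermat.Agent.T1B.Cmp67
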