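/-
T1B (S44), sub-cell TORIC50, brick CMP, part (3) DICT GLUE (helper67), file 8:
BASE CHANGE OF GENERATOR DATA, and transport along isomorphisms.

* `GenData.baseChange G h hc0` : for `h : LiftData L L'` the images `μ_j' = e_j (1 ⊗ μ_j)`,
  `s_j' = s_j`, `a' = a` form a `GenData L'`;
* `GenData.ofIso G e` : transport along an isomorphism of two-chart modules.
-/
import Mathlib
import Fermat.Agent.T1B.Cmp67.Gen

set_option autoImplicit false
set_option linter.unusedSectionVars false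

open TensorProduct

noncomputable section

namespace Fermat.Agent.T1B.Cmp67

open Fermat.Agent.Jac Fermat.Agent.Jac.JSmooth85Alg

universe u

section Cube

variable {A R0 R1 R01 A' R0' R1' R01' : Type u}
  [CommRing A] [CommRing R0] [CommRing R1] [CommRing R01]
  [Algebra A R0] [Algebra A R1] [Algebra A R01] [Algebra R0 R01] [Algebra R1 R01]
  [IsScalarTower A R0 R01] [IsScalarTower A R1 R01]
  [CommRing A'] [CommRing R0'] [CommRing R1'] [CommRing R01']
  [Algebra A' R0'] [Algebra A' R1'] [Algebra A' R01'] [Algebra R0' R01'] [Algebra R1' R01']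
  [IsScalarTower A' R0' R01'] [IsScalarTower A' R1' R01']
  [Algebra R0 R0'] [Algebra R1 R1'] [Algebra R01 R01']

/-- generators survive base change, one chart. -/
theorem gen_baseChange {R R' : Type u} [CommRing R] [CommRing R'] [Algebra R R'] {N N' : Type u}
    [AddCommGroup N] [Module R N] [AddCommGroup N'] [Module R' N']
    (e : R' ⊗[R] N ≃ₗ[R'] N') (μ : N) (s : R) (gen : ∀ x : N, ∃ r : R, s • x = r • μ) :
    ∀ y : N', ∃ r : R', algebraMap R R' s • y = r • e (1 ⊗ₜ μ) := by
  intro y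
  obtain ⟨w, rfl⟩ := e.surjective y
  induction w using TensorProduct.induction_on with
  | zero => exact ⟨0, by rw [map_zero, smul_zero, zero_smul]⟩
  | tmul c x =>
    obtain ⟨r, hr⟩ := gen x
    refine ⟨algebraMap R R' r * c, ?_⟩
    rw [← map_smul, ← map_smul, TensorProduct.smul_tmul', TensorProduct.smul_tmul', smul_eq_mul,
      smul_eq_mul, mul_one, ← Algebra.smul_def, ← Algebra.smul_def, TensorProduct.smul_tmul, hr,
      ← TensorProduct.smul_tmul]
  | add a b ha hb =>
    obtain ⟨r, hr⟩ := ha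
    obtain ⟨r', hr'⟩ := hb
    exact ⟨r + r', by rw [map_add, smul_add, hr, hr', add_smul]⟩

variable {L : QC2 A R0 R1 R01} {L' : QC2 A' R0' R1' R01'}

/-- **Base change of generator data.** -/
def GenData.baseChange (G : GenData L) (h : LiftData L L')
    (hc0 : (algebraMap R0' R01').comp (algebraMap R0 R0') =
      (algebraMap R01 R01').comp (algebraMap R0 R01)) : GenData L' where
  μ0 := h.e0 (1 ⊗ₜ G.μ0)
  μ1 := h.e1 (1 ⊗ₜ G.μ1)
  s0 := algebraMap R0 R0' G.s0
  s1 := algebraMap R1 R1' G.s1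
  a := algebraMap R01 R01' G.a
  gen0 := gen_baseChange h.e0 G.μ0 G.s0 G.gen0
  gen1 := gen_baseChange h.e1 G.μ1 G.s1 G.gen1
  ha := by
    have hrel : h.e01 ((1 : R01') ⊗ₜ[R01] (G.s0 • L.r1 G.μ1))
        = h.e01 ((1 : R01') ⊗ₜ[R01] (G.a • L.r0 G.μ0)) := by rw [G.ha]
    have hs : (G.s0 • L.r1 G.μ1 : L.N01) = (algebraMap R0 R01 G.s0) • L.r1 G.μ1 :=
      (algebraMap_smul R01 G.s0 (L.r1 G.μ1)).symm
    rw [hs, ← TensorProduct.smul_tmul, ← TensorProduct.smul_tmul, Algebra.smul_def, mul_one,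
      Algebra.smul_def, mul_one] at hrel
    have h2 : ∀ (c : R01') (z : L.N01),
        h.e01 (c ⊗ₜ[R01] z) = c • h.e01 ((1 : R01') ⊗ₜ[R01] z) := by
      intro c z
      rw [← map_smul, TensorProduct.smul_tmul', smul_eq_mul, mul_one]
    rw [h2, h2 (algebraMap R01 R01' G.a), h.comm1, h.comm0] at hrel
    rw [← hrel, ← algebraMap_smul R01' (algebraMap R0 R0' G.s0)]
    congr 1
    exact RingHom.congr_fun hc0 G.s0

@[simp] theorem GenData.baseChange_s0 (G : GenData L) (h : LiftData L L') (hc0) :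
    (G.baseChange h hc0).s0 = algebraMap R0 R0' G.s0 := rfl

@[simp] theorem GenData.baseChange_s1 (G : GenData L) (h : LiftData L L') (hc0) :
    (G.baseChange h hc0).s1 = algebraMap R1 R1' G.s1 := rfl

@[simp] theorem GenData.baseChange_a (G : GenData L) (h : LiftData L L') (hc0) :
    (G.baseChange h hc0).a = algebraMap R01 R01' G.a := rfl

end Cube

section Iso

variable {A R0 R1 R01 : Type u} [CommRing A] [CommRing R0] [CommRing R1] [CommRing R01]
  [Algebra A R0] [Algebra A R1] [Algebra A R01] [Algebra R0 R01] [Algebra R1 R01]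
  [IsScalarTower A R0 R01] [IsScalarTower A R1 R01]
  {L M : QC2 A R0 R1 R01}

/-- **Transport of generator data along an isomorphism.** -/
def GenData.ofIso (G : GenData L) (e : QC2.Iso L M) : GenData M where
  μ0 := e.e0 G.μ0
  μ1 := e.e1 G.μ1
  s0 := G.s0
  s1 := G.s1
  a := G.a
  gen0 := fun y => by
    obtain ⟨r, hr⟩ := G.gen0 (e.e0.symm y)
    refine ⟨r, ?_⟩
    rw [← map_smul, ← hr, map_smul, LinearEquiv.apply_symm_apply]
  gen1 := fun y => by
    obtain ⟨r, hr⟩ := G.gen1 (e.e1.symm y)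
    refine ⟨r, ?_⟩
    rw [← map_smul, ← hr, map_smul, LinearEquiv.apply_symm_apply]
  ha := by
    calc G.s0 • M.r1 (e.e1 G.μ1) = (algebraMap R0 R01 G.s0) • M.r1 (e.e1 G.μ1) :=
          (algebraMap_smul R01 G.s0 _).symm
      _ = (algebraMap R0 R01 G.s0) • e.e01 (L.r1 G.μ1) := by rw [e.comm1]
      _ = e.e01 ((algebraMap R0 R01 G.s0) • L.r1 G.μ1) := (map_smul e.e01 _ _).symm
      _ = e.e01 (G.s0 • L.r1 G.μ1) := by rw [algebraMap_smul]
      _ = e.e01 (G.a • L.r0 G.μ0) := by rw [G.ha]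
      _ = G.a • e.e01 (L.r0 G.μ0) := map_smul e.e01 _ _
      _ = G.a • M.r0 (e.e0 G.μ0) := by rw [e.comm0]

end Iso

end Fermat.Agent.T1B.Cmp67
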