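/-
T1B (S44), sub-cell TORIC50, brick CMP, part (3) DICT GLUE (helper67), file 3:
LINES WITH TRIVIAL SPECIAL FIBRE HAVE GENERATORS ON `D(s_j)`, `s_j ≡ 1 mod 𝔪`.

Hub vocabulary (`RedIface75`): `c0 : TwoChart W B0 B1 B01`, `O` a discrete valuation ring over `W`.

* `J1Gen c0 O L` : `GenData L` with `s_j - 1 ∈ 𝔪 (O ⊗ B_j)`;
* `exists_j1Gen` : a line `L` on `X_O` whose class lies in `J̃¹(O) = ker red` has a `J1Gen`
  (Nakayama + `H⁰`-free argument: only the triviality of the special fibre is used);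
* `J1Gen.map_eq_cechClass` : for every `n`, `PicX.map c0 O (O/𝔪^n) [L] = cechClass v` with
  `v * s0 = a` in `(O/𝔪^n) ⊗ B01`.
-/
import Mathlib
import Fermat.Agent.T1B.Cmp67.Gen
import Fermat.Agent.T1.Red11.NilpTriv
import Fermat.Agent.T1B.Toric11.TowerJ

set_option autoImplicit false
set_option linter.unusedSectionVars false

open TensorProduct

noncomputable section

namespace Fermat.Agent.T1B.Cmp67

open Fermat.Agent.Jac Fermat.Agent.Jac.JSmooth85Alg Fermat.Agent.Jac.JGroup85Pic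
open Fermat.Agent.Jac.LineOps39 Fermat.Agent.Jac.BaseChange75 Fermat.Agent.T1.RedIface75
open Fermat.Agent.T1.Red11 Fermat.Agent.T1.CechFormal70 Fermat.Agent.T1B.Toric11
open scoped Fermat.Agent.Jac.BaseChange75

universe u

variable {W B0 B1 B01 : Type u} [CommRing W] [CommRing B0] [CommRing B1] [CommRing B01]
  [Algebra W B0] [Algebra W B1] [Algebra W B01] [Algebra B0 B01] [Algebra B1 B01]
  [IsScalarTower W B0 B01] [IsScalarTower W B1 B01]
  (c0 : TwoChart W B0 B1 B01)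
  (O : Type u) [CommRing O] [IsDomain O] [IsDiscreteValuationRing O] [Algebra W O]

local notation "𝔪O" => IsLocalRing.maximalIdeal O
local notation "κO" => IsLocalRing.ResidueField O

/-- Generators of a line on `X_O` on `D(s0)`, `D(s1)` with `s_j ≡ 1` modulo `𝔪`. -/
structure J1Gen (L : QC2 O (O ⊗[W] B0) (O ⊗[W] B1) (O ⊗[W] B01)) extends GenData L where
  hs0 : s0 - 1 ∈ eI 𝔪O (O ⊗[W] B0)
  hs1 : s1 - 1 ∈ eI 𝔪O (O ⊗[W] B1)

section Exists

variable {c0 O}

/-- the kernel of `O ⊗ B → κ ⊗ B`. -/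
theorem ker_algebraMap_left_residue (B : Type u) [CommRing B] [Algebra W B] :
    RingHom.ker (algebraMap (O ⊗[W] B) (κO ⊗[W] B)) = eI 𝔪O (O ⊗[W] B) := by
  have hs : Function.Surjective (algebraMap O κO) := IsLocalRing.residue_surjective
  ext x
  rw [RingHom.mem_ker, algebraMap_left_eq_zero_iff W O κO B hs]
  have : RingHom.ker (algebraMap O κO) = 𝔪O := IsLocalRing.ker_residue
  rw [this]

/-- One chart: a generator on `D(s)`, `s ≡ 1`, from a trivialisation of the special fibre. -/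
theorem exists_gen_of_equiv {B : Type u} [CommRing B] [Algebra W B] {N : Type u} [AddCommGroup N]
    [Module (O ⊗[W] B) N] [Module.Finite (O ⊗[W] B) N]
    (e : (κO ⊗[W] B) ⊗[O ⊗[W] B] N ≃ₗ[κO ⊗[W] B] (κO ⊗[W] B)) :
    ∃ (μ : N) (s : O ⊗[W] B), s - 1 ∈ eI 𝔪O (O ⊗[W] B) ∧
      ∀ x : N, ∃ r : O ⊗[W] B, s • x = r • μ := by
  have hs : Function.Surjective (algebraMap O κO) := IsLocalRing.residue_surjective
  have hsB : Function.Surjective (algebraMap (O ⊗[W] B) (κO ⊗[W] B)) :=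
    algebraMap_left_surjective W O κO B hs
  obtain ⟨μ, hμ⟩ := exists_one_tmul_eq (M := N) hsB (e.symm 1)
  have hμ1 : e ((1 : κO ⊗[W] B) ⊗ₜ[O ⊗[W] B] μ) = 1 := by rw [hμ, LinearEquiv.apply_symm_apply]
  obtain ⟨s, hs1, hgen⟩ := exists_smul_eq_smul_gen (eI 𝔪O (O ⊗[W] B)) μ (fun x => by
    obtain ⟨r, hr⟩ := hsB (e ((1 : κO ⊗[W] B) ⊗ₜ[O ⊗[W] B] x))
    refine ⟨r, ?_⟩
    rw [← ker_algebraMap_left_residue]
    apply mem_smul_top_of_one_tmul_eq_zero hsB
    apply e.injective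
    rw [map_zero, TensorProduct.tmul_sub, map_sub, ← hr, ← TensorProduct.smul_tmul,
      Algebra.smul_def, mul_one]
    have : (algebraMap (O ⊗[W] B) (κO ⊗[W] B) r) ⊗ₜ[O ⊗[W] B] μ
        = (algebraMap (O ⊗[W] B) (κO ⊗[W] B) r) • ((1 : κO ⊗[W] B) ⊗ₜ[O ⊗[W] B] μ) := by
      rw [TensorProduct.smul_tmul', smul_eq_mul, mul_one]
    rw [this, map_smul, hμ1, smul_eq_mul, mul_one, sub_self])
  exact ⟨μ, s, hs1, hgen⟩

/-- **Lines with trivial special fibre have generators on `D(s_j)`, `s_j ≡ 1 mod 𝔪`.** -/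
theorem exists_j1Gen {L : QC2 O (O ⊗[W] B0) (O ⊗[W] B1) (O ⊗[W] B01)} (hL : L.IsLine)
    (hy : LinePic.mk (c0.baseChange O) L hL ∈ J1 c0 O) : Nonempty (J1Gen O L) := by
  have := hL.inv0
  have := hL.inv1
  have hy1 : PicX.map c0 O κO (LinePic.mk (c0.baseChange O) L hL)
      = LinePic.mk (c0.baseChange κO) QC2.unit isLine_unit := hy
  obtain ⟨h⟩ := PicX.exists_liftData_of_map_eq c0 O κO hL isLine_unit hy1
  obtain ⟨μ0, s0, hs0, gen0⟩ := exists_gen_of_equiv (O := O) (B := B0) (N := L.N0) h.e0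
  obtain ⟨μ1, s1, hs1, gen1⟩ := exists_gen_of_equiv (O := O) (B := B1) (N := L.N1) h.e1
  -- the numerator of the transition function
  have key : ∀ z : L.N01, ∃ a : O ⊗[W] B01, s0 • z = a • L.r0 μ0 := by
    intro z
    induction z using L.bc0.inductionOn with
    | zero => exact ⟨0, by rw [smul_zero, zero_smul]⟩
    | tmul x =>
      obtain ⟨r, hr⟩ := gen0 x
      refine ⟨algebraMap (O ⊗[W] B0) (O ⊗[W] B01) r, ?_⟩
      rw [← map_smul, hr, map_smul, algebraMap_smul]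
    | smul c z hz =>
      obtain ⟨a, ha⟩ := hz
      refine ⟨c * a, ?_⟩
      rw [smul_comm, ha, smul_smul]
    | add z w hz hw =>
      obtain ⟨a, ha⟩ := hz
      obtain ⟨b, hb⟩ := hw
      exact ⟨a + b, by rw [smul_add, ha, hb, add_smul]⟩
  obtain ⟨a, ha⟩ := key (L.r1 μ1)
  exact ⟨{ μ0 := μ0, μ1 := μ1, s0 := s0, s1 := s1, a := a, gen0 := gen0, gen1 := gen1, ha := ha,
           hs0 := hs0, hs1 := hs1 }⟩

end Exists

end Fermat.Agent.T1B.Cmp67
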