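/-
T1B (S44), sub-cell TORIC50, brick CMP, part (3) DICT GLUE (helper67), file 18:
**THE THREE LEVELS OF CMP ON helper66's `NLevel`**: for a normal level `E : NLevel p K`
(number field `E.L ⊇ K`, `p`-adic field `E.E = ℚ_p(ι E.L)`, `O = intSubring p E.E`):
the `W`-algebra `E.L` (`HubInst98.algAKL`), the `E.L`-algebra `E.E` (`toE E.levL`), the tower
`W → E.L → E.E`, and the fraction-field property `hfracOE` of `Cmp67.LevelData`.
-/
import Mathlib
import Fermat.Agent.T1B.Local66.Union
import Fermat.Agent.T1.HubInst98.Incl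

set_option autoImplicit false
set_option linter.unusedSectionVars false
set_option linter.style.haveILetI false

noncomputable section

namespace Fermat.Agent.T1B.Cmp67.LevelInst

open Fermat.Agent.T1B.Local66.LocalBase Fermat.Agent.T1B.Local66.Union
open Fermat.Agent.T1.HubInst98 Fermat.Agent.RED.Interface4 Fermat.Agent.TW.B5.Iface
open Fermat.Agent.T1.LocModel46 Fermat.Agent.T1.IntSub47

variable {p : ℕ} [Fact p.Prime] {K : IntermediateField ℚ Qbar} (E : NLevel p K)

/-- `E.L` as a `W`-algebra (`W = A ∩ K`). -/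
abbrev algWL : Algebra (Wb p K) ↥E.L := algAKL (padicPlace p) E.leL

/-- `E.E` as an `E.L`-algebra (the `p`-adic embedding). -/
abbrev algLE : Algebra ↥E.L ↥E.E := (toE E.levL).toAlgebra

/-- the tower `W → E.L → E.E`. -/
theorem tower_W_L_E :
    letI := algWL E
    letI := algWE E.lev
    letI := algLE E
    IsScalarTower (Wb p K) ↥E.L ↥E.E := by
  letI := algWL E
  letI := algWE E.lev
  letI := algLE E
  exact IsScalarTower.of_algebraMap_eq fun x => Subtype.ext rfl

/-- `E.E` is the field of fractions of `O_E`, in the form of `Cmp67.LevelData.hfracOE`. -/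
theorem hfracOE :
    letI := algOE E.E
    ∀ e : ↥E.E, ∃ c : ↥(intSubring p E.E), c ≠ 0 ∧
      ∃ o : ↥(intSubring p E.E), algebraMap ↥(intSubring p E.E) ↥E.E o
        = algebraMap ↥(intSubring p E.E) ↥E.E c * e := by
  letI := algOE E.E
  haveI := isFractionRing_O_E E.E
  intro e
  obtain ⟨⟨o, c⟩, h⟩ := IsLocalization.surj (nonZeroDivisors ↥(intSubring p E.E)) e
  refine ⟨c, nonZeroDivisors.ne_zero c.2, o, ?_⟩
  rw [← h, mul_comm]

/-- number fields are infinite. -/
theorem infinite_L : Infinite ↥E.L := inferInstance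

end Fermat.Agent.T1B.Cmp67.LevelInst
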