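/-
T1B (S44), sub-cell TORIC50, brick CMP, part (3) DICT GLUE (helper67), file 4:
THE TRUNCATIONS OF A CLASS OF `J̃¹(O)` IN TERMS OF GENERATORS, AND THE NORM CRITERION.

* `J1Gen.map_eq_cechClass` : `PicX.map c0 O (O/𝔪^n) [L] = cechClass v`, `v * s0 = a` in `(O/𝔪^n) ⊗ B01`;
* `bdryU`, `cls_eq_one_of_mem_bdryU` : coboundaries of ARBITRARY chart units;
* **`βn_uJ_eq_one_of_bdry`** : for a norm system `S : NormSys D D'` (helper11), `y = [L] ∈ J̃¹(O)` and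
  generators `G : J1Gen O L`:
  `S.βn 𝔪 n (uJ n y) = 1` as soon as the image of `S.N01 O G.a` in `(O/𝔪^n) ⊗ B01'` is a product
  `r0 w0 * r1 w1` of units of the two charts of the target.
-/
import Mathlib
import Fermat.Agent.T1B.Cmp67.J1Gen
import Fermat.Agent.T1B.Toric11.TowerU
import Fermat.Agent.T1B.Toric11.NormSys

set_option autoImplicit false
set_option maxHeartbeats 400000
set_option linter.unusedSectionVars false

open TensorProduct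

noncomputable section

namespace Fermat.Agent.T1B.Cmp67

open Fermat.Agent.Jac Fermat.Agent.Jac.JSmooth85Alg Fermat.Agent.Jac.JGroup85Pic
open Fermat.Agent.Jac.LineOps39 Fermat.Agent.Jac.BaseChange75 Fermat.Agent.T1.RedIface75
open Fermat.Agent.T1.Red11 Fermat.Agent.T1.CechFormal70 Fermat.Agent.T1B.Toric11
open scoped Fermat.Agent.Jac.BaseChange75

universe u

theorem eq_mul_inv_mul_inv_of_eq {G : Type*} [CommGroup G] {u v a b : G} (h : v = u * a * b) :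
    u = v * (a⁻¹ * b⁻¹) := by
  subst h
  rw [mul_assoc u a b, mul_assoc, mul_mul_mul_comm a b, mul_inv_cancel, mul_inv_cancel, mul_one,
    mul_one]

/-! ### Coboundaries of arbitrary units -/

section BdryU

variable {R T0 T1 T01 : Type*} [CommRing R] [CommRing T0] [CommRing T1] [CommRing T01]
  [Algebra R T0] [Algebra R T1] [Algebra R T01] {g : ℕ} (P : Pkg R T0 T1 T01 g)

/-- The subgroup of `T01ˣ` of coboundaries of arbitrary units of the two charts. -/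
def bdryU : Subgroup T01ˣ :=
  ((Units.map (P.r0 : T0 →* T01)).coprod (Units.map (P.r1 : T1 →* T01))).range

theorem mem_bdryU {x : T01ˣ} : x ∈ bdryU P ↔
    ∃ (w0 : T0ˣ) (w1 : T1ˣ), x = Units.map (P.r0 : T0 →* T01) w0 *
      Units.map (P.r1 : T1 →* T01) w1 := by
  constructor
  · rintro ⟨⟨w0, w1⟩, rfl⟩
    exact ⟨w0, w1, by rw [MonoidHom.coprod_apply]⟩
  · rintro ⟨w0, w1, rfl⟩
    exact ⟨(w0, w1), by rw [MonoidHom.coprod_apply]⟩

theorem map_r0_mem_bdryU (w0 : T0ˣ) : Units.map (P.r0 : T0 →* T01) w0 ∈ bdryU P :=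
  (mem_bdryU P).2 ⟨w0, 1, by rw [map_one, mul_one]⟩

theorem map_r1_mem_bdryU (w1 : T1ˣ) : Units.map (P.r1 : T1 →* T01) w1 ∈ bdryU P :=
  (mem_bdryU P).2 ⟨1, w1, by rw [map_one, one_mul]⟩

/-- A unit of `T01` whose value is a product of values of chart units is a coboundary. -/
theorem mem_bdryU_of_val_eq {x : T01ˣ} {w0 : T0ˣ} {w1 : T1ˣ}
    (h : (x : T01) = P.r0 (w0 : T0) * P.r1 (w1 : T1)) : x ∈ bdryU P :=
  (mem_bdryU P).2 ⟨w0, w1, Units.ext h⟩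

/-- a one-unit which is a coboundary of arbitrary units has trivial class in `Ĵ`. -/
theorem cls_eq_one_of_mem_bdryU {m : Ideal R} (hm : IsNilpotent m) (u : unitsOne (eI m T01))
    (h : (u : T01ˣ) ∈ bdryU P) : P.cls m u = 1 := by
  obtain ⟨w0, w1, hw⟩ := (mem_bdryU P).1 h
  rw [← map_one (P.cls m), eq_comm, P.cls_eq_cls_iff_units hm]
  exact ⟨w0, w1, by rw [hw, Subgroup.coe_one, one_mul]⟩

end BdryU

variable {W B0 B1 B01 : Type u} [CommRing W] [CommRing B0] [CommRing B1] [CommRing B01]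
  [Algebra W B0] [Algebra W B1] [Algebra W B01] [Algebra B0 B01] [Algebra B1 B01]
  [IsScalarTower W B0 B01] [IsScalarTower W B1 B01]
  (c0 : TwoChart W B0 B1 B01) {g : ℕ} (D : CechData W B0 B1 B01 g)
  (hρ0 : ∀ x, D.ρ0 x = algebraMap B0 B01 x) (hρ1 : ∀ x, D.ρ1 x = algebraMap B1 B01 x)
  (O : Type u) [CommRing O] [IsDomain O] [IsDiscreteValuationRing O] [Algebra W O]

local notation "𝔪O" => IsLocalRing.maximalIdeal O

/-! ### Truncation of the generators -/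

section Trunc

variable {O}

/-- the structure map `O ⊗ B → (O/𝔪^n) ⊗ B` is the tensor map of the quotient map. -/
theorem algebraMap_trunc_eq (B : Type u) [CommRing B] [Algebra W B] (n : ℕ) (x : O ⊗[W] B) :
    algebraMap (O ⊗[W] B) (Tr 𝔪O n ⊗[W] B) x
      = Algebra.TensorProduct.map (quo W 𝔪O n) (AlgHom.id W B) x := by
  induction x using TensorProduct.induction_on with
  | zero => rw [map_zero, map_zero]
  | add x y hx hy => rw [map_add, map_add, hx, hy]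
  | tmul a b =>
    rw [algebraMap_left_tmul, Algebra.TensorProduct.map_tmul]
    rfl

/-- an element `≡ 1 mod 𝔪` becomes a unit modulo `𝔪^n`. -/
theorem isUnit_algebraMap_trunc (B : Type u) [CommRing B] [Algebra W B] (n : ℕ) {s : O ⊗[W] B}
    (hs : s - 1 ∈ eI 𝔪O (O ⊗[W] B)) : IsUnit (algebraMap (O ⊗[W] B) (Tr 𝔪O n ⊗[W] B) s) := by
  have h1 : algebraMap (O ⊗[W] B) (Tr 𝔪O n ⊗[W] B) (s - 1) ∈ eI (mQ 𝔪O n) (Tr 𝔪O n ⊗[W] B) := by
    have h2 : (eI 𝔪O (O ⊗[W] B)).map (algebraMap (O ⊗[W] B) (Tr 𝔪O n ⊗[W] B))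
        ≤ eI (mQ 𝔪O n) (Tr 𝔪O n ⊗[W] B) := by
      unfold eI mQ
      rw [Ideal.map_map, Ideal.map_map]
      have hcomp : (algebraMap (O ⊗[W] B) (Tr 𝔪O n ⊗[W] B)).comp (algebraMap O (O ⊗[W] B))
          = (algebraMap (Tr 𝔪O n) (Tr 𝔪O n ⊗[W] B)).comp (Ideal.Quotient.mk (𝔪O ^ n)) := by
        ext a
        simp [Algebra.TensorProduct.algebraMap_apply]
      rw [hcomp]
    exact h2 (Ideal.mem_map_of_mem _ hs)
  have hnil : IsNilpotent (algebraMap (O ⊗[W] B) (Tr 𝔪O n ⊗[W] B) (s - 1)) :=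
    isNilpotent_of_mem (isNilpotent_map _ (mQ_nilpotent 𝔪O n)) h1
  have := hnil.isUnit_one_add
  rwa [map_sub, map_one, add_sub_cancel] at this

variable {c0}

/-- **The truncations of `[L]`** are the Čech classes of `a / s0`. -/
theorem J1Gen.map_eq_cechClass {L : QC2 O (O ⊗[W] B0) (O ⊗[W] B1) (O ⊗[W] B01)} (hL : L.IsLine)
    (G : J1Gen O L) (n : ℕ) :
    ∃ v : (Tr 𝔪O n ⊗[W] B01)ˣ,
      (v : Tr 𝔪O n ⊗[W] B01) * algebraMap (Tr 𝔪O n ⊗[W] B0) (Tr 𝔪O n ⊗[W] B01)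
          (algebraMap (O ⊗[W] B0) (Tr 𝔪O n ⊗[W] B0) G.s0)
        = algebraMap (O ⊗[W] B01) (Tr 𝔪O n ⊗[W] B01) G.a ∧
      PicX.map c0 O (Tr 𝔪O n) (LinePic.mk (c0.baseChange O) L hL)
        = cechClass (c0.baseChange (Tr 𝔪O n)) v := by
  obtain ⟨v, hv, hcls⟩ := G.toGenData.exists_cechClass_eq hL (baseChange_liftData (Tr 𝔪O n) L)
    (square_comm W O (Tr 𝔪O n) B0 B01) (c0.baseChange (Tr 𝔪O n))
    (isUnit_algebraMap_trunc B0 n G.hs0) (isUnit_algebraMap_trunc B1 n G.hs1)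
  refine ⟨v, hv, ?_⟩
  rw [PicX.map_mk_baseChange c0 O (Tr 𝔪O n) L hL]
  exact hcls

end Trunc


/-! ### The norm criterion -/

section Norm

variable {B0' B1' B01' : Type u} [CommRing B0'] [CommRing B1'] [CommRing B01']
  [Algebra W B0'] [Algebra W B1'] [Algebra W B01'] {g' : ℕ}
  {D} {D' : CechData W B0' B1' B01' g'} (S : NormSys D D')

/-- the norm of a coboundary of arbitrary units is a coboundary of arbitrary units. -/
theorem map_N01_mem_bdryU (R : Type u) [CommRing R] [Algebra W R] {x : (R ⊗[W] B01)ˣ}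
    (hx : x ∈ bdryU (D.pkg R)) : Units.map (S.N01 R) x ∈ bdryU (D'.pkg R) := by
  obtain ⟨w0, w1, rfl⟩ := (mem_bdryU _).1 hx
  rw [map_mul]
  refine Subgroup.mul_mem _ ?_ ?_
  · have : Units.map (S.N01 R) (Units.map ((D.pkg R).r0 : R ⊗[W] B0 →* R ⊗[W] B01) w0)
        = Units.map ((D'.pkg R).r0 : R ⊗[W] B0' →* R ⊗[W] B01') (Units.map (S.N0 R) w0) :=
      Units.ext (S.res0 R (w0 : R ⊗[W] B0))
    rw [this]
    exact map_r0_mem_bdryU _ _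
  · have : Units.map (S.N01 R) (Units.map ((D.pkg R).r1 : R ⊗[W] B1 →* R ⊗[W] B01) w1)
        = Units.map ((D'.pkg R).r1 : R ⊗[W] B1' →* R ⊗[W] B01') (Units.map (S.N1 R) w1) :=
      Units.ext (S.res1 R (w1 : R ⊗[W] B1))
    rw [this]
    exact map_r1_mem_bdryU _ _

include hρ0 hρ1 in
/-- **The norm criterion.**  `y = [L] ∈ J̃¹(O)` with generators `G`: the Čech norm of the `n`-th
truncation of `y` is trivial as soon as the image of `N01(a)` modulo `𝔪^n` is a coboundary of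
arbitrary units of the charts of the target. -/
theorem βn_uJ_eq_one_of_bdry (y : J1 c0 O)
    {L : QC2 O (O ⊗[W] B0) (O ⊗[W] B1) (O ⊗[W] B01)} (hL : L.IsLine)
    (hy : (y : PicX c0 O) = LinePic.mk (c0.baseChange O) L hL) (G : J1Gen O L) (n : ℕ)
    (hN : ∃ (w0 : (Tr 𝔪O n ⊗[W] B0')ˣ) (w1 : (Tr 𝔪O n ⊗[W] B1')ˣ),
      Algebra.TensorProduct.map (quo W 𝔪O n) (AlgHom.id W B01') (S.N01 O G.a)
        = (D'.pkg (Tr 𝔪O n)).r0 (w0 : Tr 𝔪O n ⊗[W] B0') *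
          (D'.pkg (Tr 𝔪O n)).r1 (w1 : Tr 𝔪O n ⊗[W] B1')) :
    S.βn 𝔪O n (uJ c0 D hρ0 hρ1 O n y) = 1 := by
  obtain ⟨u, hu⟩ := (D.pkg (Tr 𝔪O n)).cls_surjective (mQ 𝔪O n) (uJ c0 D hρ0 hρ1 O n y)
  rw [← hu, NormSys.βn_cls]
  apply cls_eq_one_of_mem_bdryU _ (mQ_nilpotent 𝔪O n)
  show Units.map (S.N01 (Tr 𝔪O n)) (u : (Tr 𝔪O n ⊗[W] B01)ˣ) ∈ bdryU (D'.pkg (Tr 𝔪O n))
  -- the Čech class of `u`
  obtain ⟨v, hv, hcls⟩ := G.map_eq_cechClass (c0 := c0) hL n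
  have h1 := jhatToPic_uJ c0 D hρ0 hρ1 O n y
  rw [← hu, jhatToPic_cls, hy, hcls] at h1
  obtain ⟨a0, a1, hva⟩ := (cechClass_eq_cechClass_iff (c0.baseChange (Tr 𝔪O n)) _ _).1 h1
  -- `u = v * (coboundary)⁻¹`
  have hA0 : Units.map (algebraMap (Tr 𝔪O n ⊗[W] B0) (Tr 𝔪O n ⊗[W] B01) :
      Tr 𝔪O n ⊗[W] B0 →* Tr 𝔪O n ⊗[W] B01) a0 ∈ bdryU (D.pkg (Tr 𝔪O n)) := by
    apply mem_bdryU_of_val_eq (w0 := a0) (w1 := 1)
    rw [Units.coe_map, MonoidHom.coe_coe, Units.val_one, map_one, mul_one,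
      Fermat.Agent.T1.Red11.pkg_r0_eq_algebraMap D hρ0]
  have hA1 : Units.map (algebraMap (Tr 𝔪O n ⊗[W] B1) (Tr 𝔪O n ⊗[W] B01) :
      Tr 𝔪O n ⊗[W] B1 →* Tr 𝔪O n ⊗[W] B01) a1 ∈ bdryU (D.pkg (Tr 𝔪O n)) := by
    apply mem_bdryU_of_val_eq (w0 := 1) (w1 := a1)
    rw [Units.coe_map, MonoidHom.coe_coe, Units.val_one, map_one, one_mul,
      Fermat.Agent.T1.Red11.pkg_r1_eq_algebraMap D hρ1]
  have hu' : (u : (Tr 𝔪O n ⊗[W] B01)ˣ) = v *
      ((Units.map (algebraMap (Tr 𝔪O n ⊗[W] B0) (Tr 𝔪O n ⊗[W] B01) :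
          Tr 𝔪O n ⊗[W] B0 →* Tr 𝔪O n ⊗[W] B01) a0)⁻¹ *
        (Units.map (algebraMap (Tr 𝔪O n ⊗[W] B1) (Tr 𝔪O n ⊗[W] B01) :
          Tr 𝔪O n ⊗[W] B1 →* Tr 𝔪O n ⊗[W] B01) a1)⁻¹) := by
    exact eq_mul_inv_mul_inv_of_eq hva
  rw [hu', map_mul]
  refine Subgroup.mul_mem _ ?_ (map_N01_mem_bdryU S _
    (Subgroup.mul_mem _ (Subgroup.inv_mem _ hA0) (Subgroup.inv_mem _ hA1)))
  -- the norm of `v = a / s0`
  set σ : (Tr 𝔪O n ⊗[W] B0)ˣ := (isUnit_algebraMap_trunc B0 n G.hs0).unit with hσ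
  have hσ0 : Units.map ((D.pkg (Tr 𝔪O n)).r0 : Tr 𝔪O n ⊗[W] B0 →* Tr 𝔪O n ⊗[W] B01) σ
      ∈ bdryU (D.pkg (Tr 𝔪O n)) := map_r0_mem_bdryU _ _
  have hvσ : v = (v * Units.map ((D.pkg (Tr 𝔪O n)).r0 :
      Tr 𝔪O n ⊗[W] B0 →* Tr 𝔪O n ⊗[W] B01) σ) *
      (Units.map ((D.pkg (Tr 𝔪O n)).r0 : Tr 𝔪O n ⊗[W] B0 →* Tr 𝔪O n ⊗[W] B01) σ)⁻¹ := by
    group
  rw [hvσ, map_mul]
  refine Subgroup.mul_mem _ ?_ (map_N01_mem_bdryU S _ (Subgroup.inv_mem _ hσ0))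
  obtain ⟨w0, w1, hw⟩ := hN
  apply mem_bdryU_of_val_eq (w0 := w0) (w1 := w1)
  rw [Units.coe_map, Units.val_mul, Units.coe_map, MonoidHom.coe_coe, hσ,
    IsUnit.unit_spec, Fermat.Agent.T1.Red11.pkg_r0_eq_algebraMap D hρ0, hv, algebraMap_trunc_eq,
    S.bc01, hw]

end Norm

end Fermat.Agent.T1B.Cmp67
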